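import Fermat.Agent.S17.Ht.Global
import Fermat.Agent.S17.Abs.PairQuad

/-!
# PROJECT H (S17), seam S-8 (global bookkeeping): B.14 of Part B in abstract form

Bridge between the explicit sums of `Ht/Global.lean` and the bilinear extension `Bil`, the quadratic
form `Qf` of `Abs/PairQuad.lean`, and the arithmetic of the positivity theorem B.14:
from the four global inequalities B.11, B.12, B.13 (twice) for an effective divisor `D` of degree
`r` one gets `(1/2) B(D,D) ≥ (1/2) N(D) - C`, and then `Qf (D - r ∞) ≥ (1/2) N(D) - C'`.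
-/

set_option autoImplicit false

noncomputable section

namespace Fermat.Agent.S17.Ht

open Fermat.Agent.S17.Abs.PairQuad

section Bridge

variable {X : Type*} [DecidableEq X] {ι κ : Type*} [Finite ι] [Finite κ]
variable (xt : X → ι → Qbar) (w : X → X → κ → Qbar) (tau : X → κ → Qbar) (δ : ℕ)

omit [Finite ι] [Finite κ] in
/-- the explicit double sum is the bilinear extension of `bGlob` -/
theorem BB_eq_Bil (D E : X →₀ ℤ) : BB xt w tau δ D E = Bil (bGlob xt w tau δ) D E :=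
  (Bil_eq_sum (bGlob xt w tau δ) D E).symm

omit [DecidableEq X] in
theorem degR_eq_cast (D : X →₀ ℤ) : degR D = ((∑ P ∈ D.support, D P : ℤ) : ℝ) := by
  unfold degR
  rw [Int.cast_sum]

omit [DecidableEq X] in
theorem nrm1_eq (D : X →₀ ℤ) : nrm1 D = ∑ P ∈ D.support, |(D P : ℝ)| := rfl

/-- **B.4 in the literal shape `hB4` of `PairQuad.hR_of_B4`** -/
theorem abs_Bil_zInt_sub_le [MulAction GQ X] {α : Type*} [Finite α] {e : ℕ}
    (hdata : GoodData xt w tau) (hδ : δ ≠ 0)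
    {a : α → Qbar} (ha : a ≠ 0) (Z : X →₀ ℕ) (hZ : ∑ R ∈ Z.support, Z R = e * δ)
    {lc : X → Qbar} (hlc : ∀ P, lc P ≠ 0) (hlcE : Equivar lc)
    {gam : Pl → ℝ} (hgam : AZ gam)
    (hA : ∀ v P, |starDefect xt w tau e a Z lc v P| ≤ gam v)
    {D : X →₀ ℤ} (hD : Stable D) :
    |Bil (bGlob xt w tau δ) D (zInt Z)
        - ((∑ P ∈ D.support, D P : ℤ) : ℝ) * kap xt δ a Z| ≤ tot gam * nrm1 D := by
  rw [Bil_eq_sum]
  exact abs_sum_sum_bGlob_zInt_sub_le hdata hδ ha Z hZ hlc hlcE hgam hA hD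

/-- the quadratic form of `PairQuad` on `bGlob`, by B.14 (2) -/
theorem Qf_bGlob_eq (hδ : δ ≠ 0) (hdata : GoodData xt w tau) (D : X →₀ ℤ) :
    Qf (bGlob xt w tau δ) D =
      (1 / 2) * (∑ P ∈ D.support, (D P : ℝ) ^ 2 * kt xt tau P) + degR D * Nht xt δ D
        - prox xt w D := by
  unfold Qf
  rw [← BB_eq_Bil, BB_self xt w tau δ hδ hdata.1 hdata.2.1 hdata.2.2 D]
  ring

end Bridge

section Bookkeeping

variable {X : Type*} [DecidableEq X] {ι κ : Type*} [Finite ι] [Finite κ]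
variable (xt : X → ι → Qbar) (w : X → X → κ → Qbar) (tau : X → κ → Qbar) (δ : ℕ)

/-- `κ₂(D) = ∑_P (D P (D P - 1)/2) κ_τ(P)` -/
def kap2 (D : X →₀ ℤ) : ℝ :=
  ∑ P ∈ D.support, ((D P : ℝ) * ((D P : ℝ) - 1) / 2) * kt xt tau P

omit [DecidableEq X] [Finite ι] [Finite κ] in
theorem half_sum_sq_sub_kap2 (D : X →₀ ℤ) :
    (1 / 2) * (∑ P ∈ D.support, (D P : ℝ) ^ 2 * kt xt tau P) - kap2 xt tau D =
      (1 / 2) * kapTau xt tau D := by
  unfold kap2 kapTau
  rw [Finset.mul_sum, Finset.mul_sum, ← Finset.sum_sub_distrib]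
  refine Finset.sum_congr rfl fun P _ => ?_
  ring

/-- **B.14 (3)-(6), the arithmetic of positivity.**  `E` the auxiliary divisor in the class
`e δ ∞ - K` (degree `e δ - 2g + 2`), `Bt` the Galois-saturated complement (degree `m (g - r)`):
the four global inequalities B.11, B.12, B.13 (for `E`), B.13 (for `Bt`) give
`Qf(D) ≥ (1/2) N(D) - C`. -/
theorem Qf_bGlob_ge (hδ : δ ≠ 0) (hdata : GoodData xt w tau) (D E Bt : X →₀ ℤ)
    {e : ℕ} {g r m C5 C6 C7 C8 : ℝ} (hr : degR D = r)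
    (h11 : prox xt w D ≤ ((e : ℝ) * hgt xt D - hDelta xt w D E) - (1 / m) * hDelta xt w D Bt
      + kap2 xt tau D + C5)
    (h12 : (e : ℝ) * hgt xt D - hDelta xt w D E ≤ kapTau xt tau D + C6 * r)
    (h13a : ((e : ℝ) * δ - 2 * g + 2 - 1 / 3) * Nht xt δ D - C7 ≤ hDelta xt w D E)
    (h13b : (g - r - 1 / 3) * Nht xt δ D - C8 ≤ (1 / m) * hDelta xt w D Bt) :
    (1 / 2) * Nht xt δ D - (C5 + C6 * r / 2 + C7 / 2 + C8) ≤ Qf (bGlob xt w tau δ) D := by
  have hδ' : (δ : ℝ) ≠ 0 := Nat.cast_ne_zero.mpr hδ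
  rw [Qf_bGlob_eq xt w tau δ hδ hdata D, hr]
  have h1 := half_sum_sq_sub_kap2 xt tau D
  have h2 : (e : ℝ) * hgt xt D = (e : ℝ) * δ * Nht xt δ D := by
    unfold Nht
    field_simp
  rw [h2] at h11 h12
  nlinarith [h11, h12, h13a, h13b, h1]

omit [DecidableEq X] in
/-- **B.14 (1)**: passing from `D` to the degree-zero divisor `D - r ∞` -/
theorem Qf_sub_single (b : X → X → ℝ) (hb : ∀ P R, b P R = b R P) (D : X →₀ ℤ) (oo : X) (r : ℤ) :
    Qf b (D - Finsupp.single oo r) =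
      Qf b D - (r : ℝ) * Bil b D (Finsupp.single oo 1) + (r : ℝ) ^ 2 / 2 * b oo oo := by
  rw [Qf_sub hb]
  have h2 : Bil b D (Finsupp.single oo r) = (r : ℝ) * Bil b D (Finsupp.single oo 1) := by
    rw [Bil_symm hb D, Bil_single_left, Bil_symm hb D]
  have h3 : Qf b (Finsupp.single oo r) = (r : ℝ) ^ 2 / 2 * b oo oo := by
    unfold Qf
    rw [Bil_single_single]
    ring
  rw [h2, h3]

end Bookkeeping

end Fermat.Agent.S17.Ht
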