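import Fermat.Agent.S17.Ht.Global
import Fermat.Agent.S17.Local.Chordal

/-!
# PROJECT H (S17): the canonical wedge `w P R = xt P ∧ xt R` and LEMMA T (i)

`wAt xt P R := Chordal.wedge (xt P) (xt R)` (all pairs of indices).  At the fixed places:
`nrm v (wAt xt P R) ≤ c_v nrm v (xt P) nrm v (xt R)` with `c_∞ = 2`, `c_p = 1`; hence
`λ_∞(P,R) ≥ - log 2`, `λ_p(P,R) ≥ 0`, `λ(P,R) ≥ - log 2` and the trivial upper bound
`bGlob P R ≤ log 2 + (h(P) + h(R))/δ` for `P ≠ R` (LEMMA T (i) of the amendment (A1) of Part B),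
together with the symmetry of `bGlob`.
-/

set_option autoImplicit false

noncomputable section

namespace Fermat.Agent.S17.Ht

open Fermat.Agent.S17.Local

section General

variable {X : Type*} [DecidableEq X] {ι κ : Type*} [Finite ι] [Finite κ]
variable (xt : X → ι → Qbar) (w : X → X → κ → Qbar) (tau : X → κ → Qbar) (δ : ℕ)

omit [DecidableEq X] in
/-- the global chord symbol is bounded below as soon as the wedge satisfies the trivial bounds -/
theorem neg_log_two_le_lamG (hxt : ∀ P, xt P ≠ 0) {P R : X} (hw : w P R ≠ 0)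
    (h2 : nrm none (w P R) ≤ 2 * (nrm none (xt P) * nrm none (xt R)))
    (h1 : ∀ p : Nat.Primes, nrm (some p) (w P R) ≤ nrm (some p) (xt P) * nrm (some p) (xt R)) :
    - Real.log 2 ≤ lamG xt w P R := by
  -- local statement
  have hloc : ∀ v : Pl, lam v (w P R) ≤
      (if v = none then Real.log 2 else 0) + (lam v (xt P) + lam v (xt R)) := by
    intro v
    have hP := nrm_pos (v := v) (hxt P)
    have hR := nrm_pos (v := v) (hxt R)
    rcases v with _ | p
    · rw [if_pos rfl]
      show Real.log (nrm none (w P R)) ≤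
        Real.log 2 + (Real.log (nrm none (xt P)) + Real.log (nrm none (xt R)))
      rw [← Real.log_mul hP.ne' hR.ne', ← Real.log_mul two_ne_zero (mul_pos hP hR).ne']
      exact Real.log_le_log (nrm_pos hw) h2
    · rw [if_neg (by simp), zero_add]
      show Real.log (nrm (some p) (w P R)) ≤
        Real.log (nrm (some p) (xt P)) + Real.log (nrm (some p) (xt R))
      rw [← Real.log_mul hP.ne' hR.ne']
      exact Real.log_le_log (nrm_pos hw) (h1 p)
  have haz : AZ (fun v : Pl => (if v = none then Real.log 2 else 0)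
      + (lam v (xt P) + lam v (xt R))) :=
    (az_const_none (Real.log 2)).add ((az_lam (hxt P)).add (az_lam (hxt R)))
  have h := tot_mono (az_lam hw) haz hloc
  rw [← totalLam_eq_tot, tot_add (az_const_none (Real.log 2))
    ((az_lam (hxt P)).add (az_lam (hxt R))), tot_add (az_lam (hxt P)) (az_lam (hxt R)),
    ← totalLam_eq_tot, ← totalLam_eq_tot] at h
  have hc : tot (fun v : Pl => if v = none then Real.log 2 else 0) = Real.log 2 := by
    unfold tot
    simp
  rw [hc] at h
  unfold lamG
  linarith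

/-- **LEMMA T (i)**: the trivial upper bound for the off-diagonal global symbol -/
theorem bGlob_le_of_ne (hxt : ∀ P, xt P ≠ 0) {P R : X} (hPR : P ≠ R) (hw : w P R ≠ 0)
    (h2 : nrm none (w P R) ≤ 2 * (nrm none (xt P) * nrm none (xt R)))
    (h1 : ∀ p : Nat.Primes, nrm (some p) (w P R) ≤ nrm (some p) (xt P) * nrm (some p) (xt R)) :
    bGlob xt w tau δ P R ≤
      Real.log 2 + (totalLam (xt P) + totalLam (xt R)) / (δ : ℝ) := by
  rw [bGlob_of_ne_eq_lamG xt w tau δ hxt hPR hw]
  have := neg_log_two_le_lamG xt w hxt hw h2 h1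
  linarith

end General

section Canonical

variable {X : Type*} [DecidableEq X] {ι : Type*} [Finite ι]
variable (xt : X → ι → Qbar) (tau : X → ι × ι → Qbar) (δ : ℕ)

/-- the canonical wedge of two lifts, indexed by all pairs of coordinates -/
def wAt (P R : X) : ι × ι → Qbar := Chordal.wedge (xt P) (xt R)

omit [DecidableEq X] [Finite ι] in
theorem wAt_apply (P R : X) (i j : ι) :
    wAt xt P R (i, j) = xt P i * xt R j - xt P j * xt R i := rfl

omit [DecidableEq X] in
/-- the sup norm of `Ht/Places` is the one of `Local/Chordal` at `absAt v` -/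
theorem nrm_eq_chordal_nrm {α : Type*} [Finite α] (v : Pl) (x : α → Qbar) :
    nrm v x = Chordal.nrm (absAt v) x := rfl

omit [DecidableEq X] in
theorem nrm_wAt_symm (v : Pl) (P R : X) : nrm v (wAt xt P R) = nrm v (wAt xt R P) := by
  unfold wAt
  rw [nrm_eq_chordal_nrm, nrm_eq_chordal_nrm, Chordal.wedge_comm (xt P) (xt R), Chordal.nrm_neg]

omit [DecidableEq X] in
theorem nrm_wAt_le_none (P R : X) :
    nrm none (wAt xt P R) ≤ 2 * (nrm none (xt P) * nrm none (xt R)) :=
  Chordal.nrm_wedge_le (absAt none) (xt P) (xt R)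

omit [DecidableEq X] in
theorem nrm_wAt_le_some (p : Nat.Primes) (P R : X) :
    nrm (some p) (wAt xt P R) ≤ nrm (some p) (xt P) * nrm (some p) (xt R) :=
  Chordal.nrm_wedge_le_of_nonarch (absAt (some p)) (isNonarchimedean_absAt_some p) (xt P) (xt R)

omit [DecidableEq X] in
/-- `d_v(P,R) = chord` of `Local/Chordal` -/
theorem lamD_wAt_eq_neg_log_chord (hxt : ∀ P, xt P ≠ 0) (v : Pl) {P R : X}
    (hw : wAt xt P R ≠ 0) :
    lamD xt (wAt xt) v P R = - Real.log (Chordal.chord (absAt v) (xt P) (xt R)) := by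
  unfold lamD lam Chordal.chord
  have hP := nrm_pos (v := v) (hxt P)
  have hR := nrm_pos (v := v) (hxt R)
  have hW := nrm_pos (v := v) hw
  show Real.log (nrm v (xt P)) + Real.log (nrm v (xt R)) - Real.log (nrm v (wAt xt P R)) =
    - Real.log (nrm v (wAt xt P R) / (nrm v (xt P) * nrm v (xt R)))
  rw [Real.log_div hW.ne' (mul_pos hP hR).ne', Real.log_mul hP.ne' hR.ne']
  ring

/-- symmetry of `bGlob` for the canonical wedge -/
theorem bGlob_wAt_symm (P R : X) :
    bGlob xt (wAt xt) tau δ P R = bGlob xt (wAt xt) tau δ R P :=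
  bGlob_symm xt (wAt xt) tau δ (fun v P R => nrm_wAt_symm xt v P R) P R

omit [DecidableEq X] in
theorem neg_log_two_le_lamG_wAt (hxt : ∀ P, xt P ≠ 0) {P R : X} (hw : wAt xt P R ≠ 0) :
    - Real.log 2 ≤ lamG xt (wAt xt) P R :=
  neg_log_two_le_lamG xt (wAt xt) hxt hw (nrm_wAt_le_none xt P R)
    fun p => nrm_wAt_le_some xt p P R

/-- **LEMMA T (i)** for the canonical wedge -/
theorem bGlob_wAt_le_of_ne (hxt : ∀ P, xt P ≠ 0) {P R : X} (hPR : P ≠ R)
    (hw : wAt xt P R ≠ 0) :
    bGlob xt (wAt xt) tau δ P R ≤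
      Real.log 2 + (totalLam (xt P) + totalLam (xt R)) / (δ : ℝ) :=
  bGlob_le_of_ne xt (wAt xt) tau δ hxt hPR hw (nrm_wAt_le_none xt P R)
    fun p => nrm_wAt_le_some xt p P R

end Canonical

end Fermat.Agent.S17.Ht
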