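import Fermat.Agent.S17.Ht.StarBridgeMult
import Fermat.Agent.S17.Ht.Wedge
import Fermat.Agent.S17.Local.PencilsExt

/-!
# PROJECT H (S17): `starDefect` only sees the norms of the chord / tangent vectors

The local layer (THEOREM A, `Local/Star*`, `Local/PencilsExt`) works with bivectors in `Fin r`
coordinates (`wedgeFin`, pairs `i < j`), the global layer (`Model/Global`, `Ht/Wedge`) with
bivectors indexed by all ordered pairs.  The symbols of `Ht/Recip` depend on the vectors
`w P R`, `tau P` only through their sup norms; this file records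

* `lamD_congr`, `starDefect_congr` : change of `(w, tau)` with the same norms;
* `abs_starDefect_le_of_star_log_gen`, `abs_starDefect_le_of_star_hyps_gen` : the bridges of
  `Ht/StarBridge`, `Ht/StarBridgeMult` with the family `W` indexed by an arbitrary finite type
  (resp. `Fin r`) different from the index type of `w`, `tau`;
* `nrm_wedgeFin` : `‖wedgeFin u w‖_v = ‖wedge u w‖_v`, `nrm_wedge_swap`.
-/

set_option autoImplicit false

noncomputable section

namespace Fermat.Agent.S17.Ht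

open Fermat.Agent.S17.Local Finset

section Congr

variable {X : Type*} [DecidableEq X] {ι κ κ' α : Type*}
variable (xt : X → ι → Qbar) (w : X → X → κ → Qbar) (tau : X → κ → Qbar)
variable (w' : X → X → κ' → Qbar) (tau' : X → κ' → Qbar)

omit [DecidableEq X] in
theorem lamD_congr (v : Pl) (P R : X) (h : lam v (w P R) = lam v (w' P R)) :
    lamD xt w v P R = lamD xt w' v P R := by
  unfold lamD
  rw [h]

/-- `starDefect` depends on `w P ·`, `tau P` only through `lam v` of these vectors -/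
theorem starDefect_congr (e : ℕ) (a : α → Qbar) (Z : X →₀ ℕ) (lc : X → Qbar) (v : Pl) (P : X)
    (hw : ∀ R, R ≠ P → lam v (w P R) = lam v (w' P R))
    (htau : lam v (tau P) = lam v (tau' P)) :
    starDefect xt w tau e a Z lc v P = starDefect xt w' tau' e a Z lc v P := by
  unfold starDefect
  rw [htau]
  congr 1
  refine Finset.sum_congr rfl fun R hR => ?_
  rw [lamD_congr xt w w' v P R (hw R (Finset.ne_of_mem_erase hR))]

/-- `nrm`-form of `starDefect_congr` -/
theorem starDefect_congr_nrm (e : ℕ) (a : α → Qbar) (Z : X →₀ ℕ) (lc : X → Qbar) (v : Pl)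
    (P : X) (hw : ∀ R, R ≠ P → nrm v (w P R) = nrm v (w' P R))
    (htau : nrm v (tau P) = nrm v (tau' P)) :
    starDefect xt w tau e a Z lc v P = starDefect xt w' tau' e a Z lc v P :=
  starDefect_congr xt w tau w' tau' e a Z lc v P
    (fun R hR => by unfold lam; rw [hw R hR]) (by unfold lam; rw [htau])

/-- **bridge, general index type**: as `abs_starDefect_le_of_star_log`, with the family `W`
indexed by a type `κ'` different from the index type `κ` of `w`, `tau` -/
theorem abs_starDefect_le_of_star_log_gen (δ : ℕ) (hδ : 0 < δ) (a : α → Qbar) (Z : X →₀ ℕ)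
    (hZ : ∑ R ∈ Z.support, Z R = δ) (lc : X → Qbar) (v : Pl) (P : X)
    (W : X → κ' → Qbar) (hWP : lam v (W P) = lam v (tau P))
    (hWR : ∀ R, R ≠ P → lam v (W R) = lam v (w P R)) {C : ℝ}
    (h : |logAbs v (lc P) - (lam v a
        + ∑ R ∈ Z.support, (Z R : ℝ) * (lam v (W R) - lam v (xt R))
        - ((δ - 1 : ℕ) : ℝ) * lam v (xt P))| ≤ C) :
    |starDefect xt w tau 1 a Z lc v P| ≤ C := by
  rw [starDefect_congr xt w tau (fun _ R => W R) (fun _ => W P) 1 a Z lc v P
    (fun R hR => (hWR R hR).symm) hWP.symm]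
  exact abs_starDefect_le_of_star_log xt (fun _ R => W R) (fun _ => W P) δ hδ a Z hZ lc v P W rfl
    (fun _ _ => rfl) h

end Congr

section Mult

/-- **THEOREM A ⟹ (A\*)**, general index type for `w`, `tau`: as
`abs_starDefect_le_of_star_hyps`, the `Fin r`-indexed family `W` of the local layer only has to
have the norms of `tau P` and of the `w P R`. -/
theorem abs_starDefect_le_of_star_hyps_gen {X : Type*} [DecidableEq X] {ι κ α : Type*} [Finite ι]
    [Finite α] {M r : ℕ}
    (xt : X → ι → Qbar) (w : X → X → κ → Qbar) (tau : X → κ → Qbar) (δ : ℕ)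
    (hδ : 0 < δ) (a : α → Qbar) (Z : X →₀ ℕ) (hZ : ∑ R ∈ Z.support, Z R = δ) (lc : X → Qbar)
    (v : Pl) (P : X) (W : X → Fin r → Qbar) (hWP : nrm v (W P) = nrm v (tau P))
    (hWR : ∀ R, R ≠ P → nrm v (W R) = nrm v (w P R))
    (lamP : Fin M → Fin r → Qbar)
    {U L l g c0 : ℝ} (hU : 0 < U) (hL : 0 < L) (hl : 0 < l) (hg : 0 < g) (hc0 : 0 < c0)
    (hcard : ∀ w : Fin r → Qbar, (smallSet (absAt v) lamP c0 w).card ≤ r - 1)
    (hM : (r - 1) * δ < M)
    (hW : ∀ R ∈ Z.support, 0 < supN (absAt v) (W R))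
    (hnz : ∀ R ∈ Z.support, 0 < nrm v (xt R))
    (hnzP : 0 < nrm v (xt P)) (hna : 0 < nrm v a)
    (Phi cm : Fin M → Qbar) (Nn : Fin M → ℝ) (nyX : Fin M → X → ℝ)
    (hny : ∀ m, ∀ R ∈ Z.support, 0 < nyX m R)
    (hN : ∀ m, lc P * Phi m = cm m * ∏ R ∈ Z.support, pair (lamP m) (W R) ^ (Z R))
    (hG_le : ∀ m, Nn m ≤ g * (absAt v (cm m) * ∏ R ∈ Z.support, nyX m R ^ (Z R)))
    (hG_ge : ∀ m, absAt v (cm m) * ∏ R ∈ Z.support, nyX m R ^ (Z R) ≤ g * Nn m)
    (hU_Phi : ∀ m, absAt v (Phi m) ≤ U * nrm v a ^ (δ - 1) * nrm v (xt P) ^ (δ - 1))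
    (hU_y : ∀ m, ∀ R ∈ Z.support, nyX m R ≤ U * nrm v (xt R))
    (hU_N : ∀ m, Nn m ≤ U * nrm v a ^ δ)
    (hU_pair : ∀ m, ∀ R ∈ Z.support, absAt v (pair (lamP m) (W R)) ≤ U * supN (absAt v) (W R))
    (hL1 : ∀ m, ∀ R ∈ Z.support, nrm v (xt R) ≤ L * nyX m R)
    (hL2 : ∀ m, l * nrm v a ^ δ ≤ Nn m)
    (hL3 : ∃ m, l * nrm v a ^ (δ - 1) * nrm v (xt P) ^ (δ - 1) ≤ absAt v (Phi m)) :
    |starDefect xt w tau 1 a Z lc v P| ≤
      max (-Real.log (l * c0 ^ δ / (g * U ^ (δ + 1))))
        (Real.log (g * U ^ (δ + 1) * L ^ δ / l)) := by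
  rw [starDefect_congr_nrm xt w tau (fun _ R => W R) (fun _ => W P) 1 a Z lc v P
    (fun R hR => (hWR R hR).symm) hWP.symm]
  exact abs_starDefect_le_of_star_hyps xt (fun _ R => W R) (fun _ => W P) δ hδ a Z hZ lc v P W rfl
    (fun _ _ => rfl) lamP hU hL hl hg hc0 hcard hM hW hnz hnzP hna Phi cm Nn nyX hny hN hG_le
    hG_ge hU_Phi hU_y hU_N hU_pair hL1 hL2 hL3

end Mult

section WedgeFin

open Fermat.Agent.S17.Local.PencilsExt Fermat.Agent.S17.Local.GeneralPosition

/-- the sup norm of `Local/Pigeonhole` at `absAt v` is the one of `Ht/Places` -/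
theorem supN_eq_nrm {r : ℕ} (v : Pl) (x : Fin r → Qbar) : supN (absAt v) x = nrm v x := rfl

theorem nrm_wedge_swap {ι : Type*} [Finite ι] (v : Pl) (u w : ι → Qbar) :
    nrm v (Chordal.wedge u w) = nrm v (Chordal.wedge w u) := by
  rw [nrm_eq_chordal_nrm, nrm_eq_chordal_nrm, Chordal.wedge_comm w u, Chordal.nrm_neg]

/-- the bivector in `Fin r` coordinates (pairs `i < j`) and the bivector indexed by all ordered
pairs have the same sup norm -/
theorem nrm_wedgeFin {n : ℕ} (v : Pl) (u w : Fin (n + 1) → Qbar) :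
    nrm v (wedgeFin Qbar u w) = nrm v (Chordal.wedge u w) := by
  refine le_antisymm (nrm_le (nrm_nonneg v _) fun j => ?_) (nrm_le (nrm_nonneg v _) fun p => ?_)
  · exact absAt_le_nrm v (Chordal.wedge u w)
      (((Fintype.equivFin (PlIdx n)).symm j).1.1, ((Fintype.equivFin (PlIdx n)).symm j).1.2)
  · obtain ⟨i, j⟩ := p
    rcases lt_trichotomy i j with hij | hij | hij
    · have h := absAt_le_nrm v (wedgeFin Qbar u w) (Fintype.equivFin (PlIdx n) ⟨(i, j), hij⟩)
      rwa [wedgeFin_equivFin] at h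
    · subst hij
      have h0 : Chordal.wedge u w (i, i) = 0 := by
        show u i * w i - u i * w i = 0
        ring
      rw [h0, map_zero]
      exact nrm_nonneg v _
    · have h := absAt_le_nrm v (wedgeFin Qbar u w) (Fintype.equivFin (PlIdx n) ⟨(j, i), hij⟩)
      rw [wedgeFin_equivFin] at h
      have h1 : Chordal.wedge u w (i, j) = - (u j * w i - u i * w j) := by
        show u i * w j - u j * w i = - (u j * w i - u i * w j)
        ring
      rw [h1, map_neg_eq_map]
      exact h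

/-- `wedgeFin` against the canonical wedge `wAt` of `Ht/Wedge` -/
theorem nrm_wedgeFin_eq_nrm_wAt {X : Type*} {n : ℕ} (v : Pl) (xt : X → Fin (n + 1) → Qbar)
    (P R : X) : nrm v (wedgeFin Qbar (xt R) (xt P)) = nrm v (wAt xt P R) := by
  rw [nrm_wedgeFin, nrm_wedge_swap]
  rfl

end WedgeFin

end Fermat.Agent.S17.Ht
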