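import Fermat.Agent.S17.Ht.Places

/-!
# PROJECT H (S17), height stock: summing local terms over the fixed places

`AZ f` : the family `f : Pl → ℝ` vanishes at almost all primes; `tot f` its sum over all places.
The LOCAL-TO-GLOBAL lemma turns a family of inequalities `⨆ |x_i| ≤ C(abv) * ⨆ |y_j|`, valid for
every absolute value of `Qbar` with `C(abv) = 1` for all nonarchimedean `abv` that are `≤ 1` on a
finite set of rational numbers, into one inequality between total logarithmic sup norms with a
uniform additive constant.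
-/

set_option autoImplicit false

noncomputable section

namespace Fermat.Agent.S17.Ht

/-- the family vanishes at almost all primes -/
def AZ (f : Pl → ℝ) : Prop := (Function.support fun p : Nat.Primes => f (some p)).Finite

/-- the sum of a family over all places of `ℚ` -/
def tot (f : Pl → ℝ) : ℝ := f none + ∑ᶠ p : Nat.Primes, f (some p)

theorem az_of_finite {f : Pl → ℝ} {S : Set Nat.Primes} (hS : S.Finite)
    (h : ∀ p, p ∉ S → f (some p) = 0) : AZ f :=
  hS.subset fun p hp => by
    by_contra hpS
    exact hp (h p hpS)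

theorem az_zero : AZ (fun _ => (0 : ℝ)) := by
  unfold AZ
  simp

theorem az_const_none (c : ℝ) : AZ (fun v : Pl => if v = none then c else 0) := by
  unfold AZ
  simp

theorem AZ.add {f g : Pl → ℝ} (hf : AZ f) (hg : AZ g) : AZ (fun v => f v + g v) :=
  (hf.union hg).subset (Function.support_add (fun p : Nat.Primes => f (some p))
    (fun p : Nat.Primes => g (some p)))

theorem AZ.neg {f : Pl → ℝ} (hf : AZ f) : AZ (fun v => - f v) := by
  unfold AZ at *
  have : (Function.support fun p : Nat.Primes => - f (some p)) =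
      Function.support fun p : Nat.Primes => f (some p) := Function.support_neg _
  rwa [this]

theorem AZ.sub {f g : Pl → ℝ} (hf : AZ f) (hg : AZ g) : AZ (fun v => f v - g v) := by
  simpa only [sub_eq_add_neg] using hf.add hg.neg

theorem AZ.const_mul {f : Pl → ℝ} (hf : AZ f) (c : ℝ) : AZ (fun v => c * f v) :=
  hf.subset fun p hp h0 => hp (by
    have h0' : f (some p) = 0 := h0
    show c * f (some p) = 0
    rw [h0', mul_zero])

theorem AZ.sum {α : Type*} (s : Finset α) {f : α → Pl → ℝ} (hf : ∀ a ∈ s, AZ (f a)) :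
    AZ (fun v => ∑ a ∈ s, f a v) := by
  classical
  induction s using Finset.induction_on with
  | empty => simpa using az_zero
  | insert a s ha ih =>
    have h1 := (hf a (Finset.mem_insert_self a s)).add
      (ih fun b hb => hf b (Finset.mem_insert_of_mem hb))
    refine h1.subset fun p hp => ?_
    simpa [Finset.sum_insert ha] using hp

/-- sandwich -/
theorem AZ.of_le_of_le {f g h : Pl → ℝ} (hf : AZ f) (hh : AZ h)
    (h1 : ∀ p : Nat.Primes, f (some p) ≤ g (some p))
    (h2 : ∀ p : Nat.Primes, g (some p) ≤ h (some p)) : AZ g :=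
  (hf.union hh).subset fun p hp => by
    by_contra hcon
    simp only [Set.mem_union, Function.mem_support, not_or, not_not] at hcon
    apply hp
    have a1 := h1 p
    have a2 := h2 p
    rw [hcon.1] at a1
    rw [hcon.2] at a2
    exact le_antisymm a2 a1

theorem tot_zero : tot (fun _ => (0 : ℝ)) = 0 := by
  unfold tot
  simp

theorem tot_add {f g : Pl → ℝ} (hf : AZ f) (hg : AZ g) :
    tot (fun v => f v + g v) = tot f + tot g := by
  unfold tot
  rw [finsum_add_distrib hf hg]
  ring

theorem tot_const_mul (f : Pl → ℝ) (c : ℝ) : tot (fun v => c * f v) = c * tot f := by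
  unfold tot
  rw [← mul_finsum]
  ring

theorem tot_neg (f : Pl → ℝ) : tot (fun v => - f v) = - tot f := by
  have := tot_const_mul f (-1)
  simpa using this

theorem tot_sub {f g : Pl → ℝ} (hf : AZ f) (hg : AZ g) :
    tot (fun v => f v - g v) = tot f - tot g := by
  simp only [sub_eq_add_neg]
  rw [tot_add hf hg.neg, tot_neg]

theorem tot_sum {α : Type*} (s : Finset α) {f : α → Pl → ℝ} (hf : ∀ a ∈ s, AZ (f a)) :
    tot (fun v => ∑ a ∈ s, f a v) = ∑ a ∈ s, tot (f a) := by
  classical
  induction s using Finset.induction_on with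
  | empty => simpa using tot_zero
  | insert a s ha ih =>
    have hs : ∀ b ∈ s, AZ (f b) := fun b hb => hf b (Finset.mem_insert_of_mem hb)
    have h1 := tot_add (hf a (Finset.mem_insert_self a s)) (AZ.sum s hs)
    rw [Finset.sum_insert ha, ← ih hs, ← h1]
    congr 1
    funext v
    rw [Finset.sum_insert ha]

theorem tot_mono {f g : Pl → ℝ} (hf : AZ f) (hg : AZ g) (h : ∀ v, f v ≤ g v) :
    tot f ≤ tot g := by
  unfold tot
  exact add_le_add (h none) (finsum_le_finsum' hf hg fun p => h (some p))

theorem tot_nonneg {f : Pl → ℝ} (h : ∀ v, 0 ≤ f v) : 0 ≤ tot f := by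
  unfold tot
  exact add_nonneg (h none) (finsum_nonneg fun p => h (some p))

theorem az_logAbs {a : Qbar} (ha : a ≠ 0) : AZ (fun v => logAbs v a) := finite_support_logAbs ha

theorem totalLog_eq_tot (a : Qbar) : totalLog a = tot (fun v => logAbs v a) := rfl

section Tuples

variable {ι : Type*} [Finite ι]

theorem az_lam {x : ι → Qbar} (hx : x ≠ 0) : AZ (fun v => lam v x) := finite_support_lam hx

omit [Finite ι] in
theorem totalLam_eq_tot (x : ι → Qbar) : totalLam x = tot (fun v => lam v x) := rfl

end Tuples

/-! ### local constants -/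

/-- for a finite set of algebraic numbers, almost all primes see all of them as integral -/
theorem finite_setOf_exists_one_lt_absAt (T : Finset Qbar) :
    {p : Nat.Primes | ∃ c ∈ T, 1 < absAt (some p) c}.Finite := by
  have : {p : Nat.Primes | ∃ c ∈ T, 1 < absAt (some p) c} =
      ⋃ c ∈ T, {p : Nat.Primes | 1 < absAt (some p) c} := by
    ext p
    simp
  rw [this]
  exact Set.Finite.biUnion T.finite_toSet fun c _ => finite_setOf_one_lt_absAt c

/-- constants which are `1` at every prime where a fixed finite set of numbers is integral -/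
theorem az_log_of_forall_le_one {C : Pl → ℝ} (T : Finset Qbar)
    (h : ∀ p : Nat.Primes, (∀ c ∈ T, absAt (some p) c ≤ 1) → C (some p) = 1) :
    AZ (fun v => Real.log (C v)) := by
  refine az_of_finite (finite_setOf_exists_one_lt_absAt T) fun p hp => ?_
  have : ∀ c ∈ T, absAt (some p) c ≤ 1 := by
    intro c hc
    by_contra hlt
    exact hp ⟨c, hc, not_le.mp hlt⟩
  show Real.log (C (some p)) = 0
  rw [h p this, Real.log_one]

section LocalToGlobal

variable {ι κ : Type*} [Finite ι] [Finite κ]

/-- summing local inequalities between sup norms -/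
theorem totalLam_le_tot_add {x : ι → Qbar} {y : κ → Qbar} (hx : x ≠ 0) (hy : y ≠ 0)
    {C : Pl → ℝ} (hC0 : ∀ v, 0 < C v) (hC : AZ (fun v => Real.log (C v)))
    (h : ∀ v, nrm v x ≤ C v * nrm v y) :
    totalLam x ≤ tot (fun v => Real.log (C v)) + totalLam y := by
  rw [totalLam_eq_tot, totalLam_eq_tot, ← tot_add hC (az_lam hy)]
  refine tot_mono (az_lam hx) (hC.add (az_lam hy)) fun v => ?_
  show Real.log (nrm v x) ≤ Real.log (C v) + Real.log (nrm v y)
  rw [← Real.log_mul (hC0 v).ne' (nrm_pos hy).ne']
  exact Real.log_le_log (nrm_pos hx) (h v)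

/-- **LOCAL-TO-GLOBAL.**  A family of inequalities `⨆ᵢ |x a i| ≤ C(abv) * ⨆ⱼ |y a j|` which holds
for every absolute value `abv` of `Qbar`, with a constant `C(abv)` independent of the parameter `a`
and equal to `1` for all nonarchimedean `abv` that are `≤ 1` on a fixed finite set `T`, gives a
uniform bound `totalLam (x a) ≤ B + totalLam (y a)`. -/
theorem exists_forall_totalLam_le {X : Type*} (x : X → ι → Qbar) (y : X → κ → Qbar)
    (T : Finset Qbar)
    (h : ∀ abv : AbsoluteValue Qbar ℝ, ∃ C : ℝ, 0 < C ∧
      (IsNonarchimedean abv → (∀ c ∈ T, abv c ≤ 1) → C = 1) ∧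
      ∀ a : X, (⨆ i, abv (x a i)) ≤ C * ⨆ j, abv (y a j)) :
    ∃ B : ℝ, ∀ a : X, x a ≠ 0 → y a ≠ 0 → totalLam (x a) ≤ B + totalLam (y a) := by
  choose C hC0 hC1 hC using h
  refine ⟨tot fun v => Real.log (C (absAt v)), fun a hxa hya => ?_⟩
  refine totalLam_le_tot_add hxa hya (fun v => hC0 (absAt v)) ?_ fun v => hC (absAt v) a
  exact az_log_of_forall_le_one (C := fun v => C (absAt v)) T fun p hp =>
    hC1 (absAt (some p)) (isNonarchimedean_absAt_some p) hp

end LocalToGlobal

end Fermat.Agent.S17.Ht
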