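import Fermat.Agent.S17.Ht.Packets

/-!
# PROJECT H (S17), height stock: from local estimates to packet inequalities

`D` a stable divisor, `f` a Galois-equivariant function, nonzero on the support of `D`.
The product formula gives `∑_P D P * totalLog (f P) = 0`; so a family of local estimates
`log |f P|_v ≤ Φ v P + γ v` (all places `v`, all `P` in the support) sums to a global inequality
`0 ≤ ∑_P D P * tot (Φ · P) + (tot γ) * deg D` for effective `D`, etc.
These are the only ways in which Part B of the H0 text uses the product formula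
(B.4, B.7 (b), B.11, B.12).
-/

set_option autoImplicit false

noncomputable section

namespace Fermat.Agent.S17.Ht

variable {X : Type*} [MulAction GQ X]

/-- upper local estimates on an effective stable divisor -/
theorem zero_le_sum_tot_add_of_local_le {D : X →₀ ℤ} (hD : Stable D) (hD0 : ∀ P, 0 ≤ D P)
    {f : X → Qbar} (hf : Equivar f) (h0 : ∀ P ∈ D.support, f P ≠ 0)
    {Φ : Pl → X → ℝ} (hΦ : ∀ P ∈ D.support, AZ (fun v => Φ v P)) {γ : Pl → ℝ} (hγ : AZ γ)
    (h : ∀ v, ∀ P ∈ D.support, logAbs v (f P) ≤ Φ v P + γ v) :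
    0 ≤ (∑ P ∈ D.support, (D P : ℝ) * tot (fun v => Φ v P))
      + tot γ * ∑ P ∈ D.support, (D P : ℝ) := by
  rw [← sum_mul_totalLog_eq_zero hD hf h0, Finset.mul_sum, ← Finset.sum_add_distrib]
  refine Finset.sum_le_sum fun P hP => ?_
  have h1 : totalLog (f P) ≤ tot (fun v => Φ v P) + tot γ := by
    rw [totalLog_eq_tot, ← tot_add (hΦ P hP) hγ]
    exact tot_mono (az_logAbs (h0 P hP)) ((hΦ P hP).add hγ) fun v => h v P hP
  have h2 : (0 : ℝ) ≤ (D P : ℝ) := by exact_mod_cast hD0 P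
  calc (D P : ℝ) * totalLog (f P) ≤ (D P : ℝ) * (tot (fun v => Φ v P) + tot γ) :=
        mul_le_mul_of_nonneg_left h1 h2
    _ = (D P : ℝ) * tot (fun v => Φ v P) + tot γ * (D P : ℝ) := by ring

/-- lower local estimates on an effective stable divisor -/
theorem sum_tot_sub_le_zero_of_le_local {D : X →₀ ℤ} (hD : Stable D) (hD0 : ∀ P, 0 ≤ D P)
    {f : X → Qbar} (hf : Equivar f) (h0 : ∀ P ∈ D.support, f P ≠ 0)
    {Φ : Pl → X → ℝ} (hΦ : ∀ P ∈ D.support, AZ (fun v => Φ v P)) {γ : Pl → ℝ} (hγ : AZ γ)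
    (h : ∀ v, ∀ P ∈ D.support, Φ v P - γ v ≤ logAbs v (f P)) :
    (∑ P ∈ D.support, (D P : ℝ) * tot (fun v => Φ v P))
      - tot γ * ∑ P ∈ D.support, (D P : ℝ) ≤ 0 := by
  rw [← sum_mul_totalLog_eq_zero hD hf h0, Finset.mul_sum, ← Finset.sum_sub_distrib]
  refine Finset.sum_le_sum fun P hP => ?_
  have h1 : tot (fun v => Φ v P) - tot γ ≤ totalLog (f P) := by
    rw [totalLog_eq_tot, ← tot_sub (hΦ P hP) hγ]
    exact tot_mono ((hΦ P hP).sub hγ) (az_logAbs (h0 P hP)) fun v => h v P hP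
  have h2 : (0 : ℝ) ≤ (D P : ℝ) := by exact_mod_cast hD0 P
  calc (D P : ℝ) * tot (fun v => Φ v P) - tot γ * (D P : ℝ)
      = (D P : ℝ) * (tot (fun v => Φ v P) - tot γ) := by ring
    _ ≤ (D P : ℝ) * totalLog (f P) := mul_le_mul_of_nonneg_left h1 h2

/-- two-sided local estimates on an arbitrary stable divisor -/
theorem abs_sum_tot_le_of_abs_local_le {D : X →₀ ℤ} (hD : Stable D)
    {f : X → Qbar} (hf : Equivar f) (h0 : ∀ P ∈ D.support, f P ≠ 0)
    {Φ : Pl → X → ℝ} (hΦ : ∀ P ∈ D.support, AZ (fun v => Φ v P)) {γ : Pl → ℝ} (hγ : AZ γ)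
    (h : ∀ v, ∀ P ∈ D.support, |logAbs v (f P) - Φ v P| ≤ γ v) :
    |∑ P ∈ D.support, (D P : ℝ) * tot (fun v => Φ v P)|
      ≤ tot γ * ∑ P ∈ D.support, |(D P : ℝ)| := by
  have h1 : ∑ P ∈ D.support, (D P : ℝ) * tot (fun v => Φ v P) =
      ∑ P ∈ D.support, (D P : ℝ) * (tot (fun v => Φ v P) - totalLog (f P)) := by
    simp only [mul_sub]
    rw [Finset.sum_sub_distrib, sum_mul_totalLog_eq_zero hD hf h0, sub_zero]
  rw [h1, Finset.mul_sum]
  refine (Finset.abs_sum_le_sum_abs _ _).trans (Finset.sum_le_sum fun P hP => ?_)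
  rw [abs_mul, mul_comm]
  refine mul_le_mul_of_nonneg_right ?_ (abs_nonneg _)
  rw [totalLog_eq_tot, ← tot_sub (hΦ P hP) (az_logAbs (h0 P hP)), abs_le]
  have haz := (hΦ P hP).sub (az_logAbs (h0 P hP))
  constructor
  · rw [← tot_neg]
    refine tot_mono hγ.neg haz fun v => ?_
    have := (abs_le.mp (h v P hP)).2
    linarith
  · refine tot_mono haz hγ fun v => ?_
    have := (abs_le.mp (h v P hP)).1
    linarith

end Fermat.Agent.S17.Ht
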