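import Fermat.Agent.S17.Ht.GlobalDet
import Fermat.Agent.S17.Ht.PacketBounds

/-!
# PROJECT H (S17), seam S-8 (global side): B.12 of Part B, packet form

From the local one-sided adjunction at every place,
`log |f P|_v + (e + 2) ℓ_v(P) - ∑_{T ∈ E} E(T) λ_v(P,T) ≤ γ_v + t_v(P)` with `f` a Galois-equivariant
function (`f P = (η_E / ds_P)(P)`), the product formula gives for every effective stable divisor
`D` with support disjoint from `E`:  `κ_E(D) = e h(D) - h_Δ(D,E) ≤ κ_τ(D) + (tot γ) deg D`.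
-/

set_option autoImplicit false

noncomputable section

namespace Fermat.Agent.S17.Ht

section Adjunction

variable {X : Type*} [DecidableEq X] [MulAction GQ X] {ι κ : Type*} [Finite ι] [Finite κ]
variable (xt : X → ι → Qbar) (w : X → X → κ → Qbar) (tau : X → κ → Qbar)

omit [DecidableEq X] [MulAction GQ X] [Finite ι] [Finite κ] in
theorem kapTau_eq (D : X →₀ ℤ) :
    kapTau xt tau D =
      (∑ P ∈ D.support, (D P : ℝ) * totalLam (tau P)) - 2 * hgt xt D := by
  unfold kapTau kt hgt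
  rw [Finset.mul_sum, ← Finset.sum_sub_distrib]
  refine Finset.sum_congr rfl fun P _ => ?_
  ring

omit [DecidableEq X] [MulAction GQ X] [Finite ι] [Finite κ] in
/-- `h_Δ(D,E)` as a sum over the points of `D` -/
theorem hDelta_eq_sum (D E : X →₀ ℤ) :
    hDelta xt w D E =
      ∑ P ∈ D.support, (D P : ℝ) * ∑ T ∈ E.support, (E T : ℝ) * lamG xt w P T := by
  unfold hDelta
  refine Finset.sum_congr rfl fun P _ => ?_
  rw [Finset.mul_sum]
  refine Finset.sum_congr rfl fun T _ => ?_
  ring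

omit [DecidableEq X] in
/-- **B.12, packet form** = hypothesis `h12` of `Qf_bGlob_ge`. -/
theorem kapE_le_kapTau_of_local (hdata : GoodData xt w tau) {D E : X →₀ ℤ} (hD : Stable D)
    (hD0 : ∀ P, 0 ≤ D P) (hDE : Disjoint D.support E.support)
    {f : X → Qbar} (hf : Equivar f) (h0 : ∀ P ∈ D.support, f P ≠ 0) (e : ℕ)
    {γ : Pl → ℝ} (hγ : AZ γ)
    (hloc : ∀ v, ∀ P ∈ D.support,
      logAbs v (f P) + ((e : ℝ) + 2) * lam v (xt P)
        - ∑ T ∈ E.support, (E T : ℝ) * lamD xt w v P T ≤ γ v + lam v (tau P)) :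
    (e : ℝ) * hgt xt D - hDelta xt w D E ≤ kapTau xt tau D + tot γ * degR D := by
  obtain ⟨hxt, hw, htau⟩ := hdata
  have hne : ∀ P ∈ D.support, ∀ T ∈ E.support, P ≠ T := fun P hP T hT h =>
    (Finset.disjoint_left.mp hDE hP) (h ▸ hT)
  -- the local majorant `Φ v P`
  let Φ : Pl → X → ℝ := fun v P =>
    lam v (tau P) - ((e : ℝ) + 2) * lam v (xt P)
      + ∑ T ∈ E.support, (E T : ℝ) * lamD xt w v P T
  have hΦaz : ∀ P ∈ D.support, AZ (fun v => Φ v P) := fun P hP =>
    ((az_lam (htau P)).sub ((az_lam (hxt P)).const_mul _)).add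
      (AZ.sum _ fun T hT => (az_lamD xt w hxt (hw P T (hne P hP T hT))).const_mul _)
  have hΦtot : ∀ P ∈ D.support, tot (fun v => Φ v P) =
      totalLam (tau P) - ((e : ℝ) + 2) * totalLam (xt P)
        + ∑ T ∈ E.support, (E T : ℝ) * lamG xt w P T := by
    intro P hP
    have a1 := (az_lam (htau P)).sub ((az_lam (hxt P)).const_mul ((e : ℝ) + 2))
    have a2 : AZ (fun v => ∑ T ∈ E.support, (E T : ℝ) * lamD xt w v P T) :=
      AZ.sum _ fun T hT => (az_lamD xt w hxt (hw P T (hne P hP T hT))).const_mul _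
    show tot (fun v => lam v (tau P) - ((e : ℝ) + 2) * lam v (xt P)
      + ∑ T ∈ E.support, (E T : ℝ) * lamD xt w v P T) = _
    rw [tot_add a1 a2, tot_sub (az_lam (htau P)) ((az_lam (hxt P)).const_mul _), tot_const_mul,
      tot_sum _ fun T hT => (az_lamD xt w hxt (hw P T (hne P hP T hT))).const_mul _]
    congr 1
    refine Finset.sum_congr rfl fun T hT => ?_
    rw [tot_const_mul, tot_lamD xt w hxt (hw P T (hne P hP T hT))]
    rfl
  have hmain := zero_le_sum_tot_add_of_local_le hD hD0 hf h0 hΦaz hγ (fun v P hP => by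
    have := hloc v P hP
    show logAbs v (f P) ≤ lam v (tau P) - ((e : ℝ) + 2) * lam v (xt P)
      + ∑ T ∈ E.support, (E T : ℝ) * lamD xt w v P T + γ v
    linarith)
  rw [Finset.sum_congr rfl fun P hP => by rw [hΦtot P hP]] at hmain
  rw [kapTau_eq, hDelta_eq_sum]
  unfold hgt degR
  have hsplit : ∑ P ∈ D.support, (D P : ℝ) * (totalLam (tau P) - ((e : ℝ) + 2) * totalLam (xt P)
        + ∑ T ∈ E.support, (E T : ℝ) * lamG xt w P T) =
      (∑ P ∈ D.support, (D P : ℝ) * totalLam (tau P))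
        - ((e : ℝ) + 2) * (∑ P ∈ D.support, (D P : ℝ) * totalLam (xt P))
        + ∑ P ∈ D.support, (D P : ℝ) * ∑ T ∈ E.support, (E T : ℝ) * lamG xt w P T := by
    rw [Finset.mul_sum, ← Finset.sum_sub_distrib, ← Finset.sum_add_distrib]
    refine Finset.sum_congr rfl fun P _ => ?_
    ring
  rw [hsplit] at hmain
  linarith

end Adjunction

end Fermat.Agent.S17.Ht
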