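import Fermat.Agent.S17.Ht.Positivity

/-!
# PROJECT H (S17), seam S-8 (global side): B.11 of Part B in abstract form

Local versions (at the fixed place above `v`) of the global quantities of `Ht/Global.lean`, their
sums over all places, the product formula for a family of numbers which the Galois group permutes
up to sign (`∏ Δ_s` has rational square), and the global determinant inequality B.11:
from the local determinant bounds B.10 at every `(s, v)`,
`prox D ≤ κ_E(D) - (1/m) h_Δ(D, ∑_s B s) + κ₂(D) + C₅`.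
-/

set_option autoImplicit false

noncomputable section

namespace Fermat.Agent.S17.Ht

open Fermat.Agent.S17.Abs.PairQuad

/-! ### product formula up to signs -/

/-- the product formula for a finite family permuted by Galois up to signs -/
theorem sum_totalLog_eq_zero_of_sign {S : Type*} [Fintype S] [MulAction GQ S] (Δ : S → Qbar)
    (h0 : ∀ s, Δ s ≠ 0)
    (hΔ : ∀ (σ : GQ) (s : S), σ (Δ s) = Δ (σ • s) ∨ σ (Δ s) = - Δ (σ • s)) :
    ∑ s, totalLog (Δ s) = 0 := by
  have hsq : ∀ s, Δ s ^ 2 ≠ 0 := fun s => pow_ne_zero 2 (h0 s)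
  have h1 := sum_totalLog_eq_zero (fun s => Δ s ^ 2) (fun σ s => ?_) hsq
  · have h2 : ∀ s, totalLog (Δ s ^ 2) = 2 * totalLog (Δ s) := fun s => by
      rw [totalLog_pow (h0 s)]
      norm_num
    simp only [h2, ← Finset.mul_sum] at h1
    linarith
  · show Δ (σ • s) ^ 2 = σ (Δ s ^ 2)
    rw [map_pow]
    rcases hΔ σ s with h | h
    · rw [h]
    · rw [h, neg_sq]

section Local

variable {X : Type*} [DecidableEq X] {ι κ : Type*} [Finite ι] [Finite κ]
variable (xt : X → ι → Qbar) (w : X → X → κ → Qbar) (tau : X → κ → Qbar)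

/-- local height of a divisor -/
def hgtLoc (v : Pl) (D : X →₀ ℤ) : ℝ := ∑ P ∈ D.support, (D P : ℝ) * lam v (xt P)

/-- local `h_Δ` -/
def hDeltaLoc (v : Pl) (D E : X →₀ ℤ) : ℝ :=
  ∑ P ∈ D.support, ∑ R ∈ E.support, (D P : ℝ) * (E R : ℝ) * lamD xt w v P R

/-- local `prox` -/
def proxLoc (v : Pl) (D : X →₀ ℤ) : ℝ :=
  (1 / 2) * ∑ P ∈ D.support, ∑ R ∈ D.support.erase P, (D P : ℝ) * (D R : ℝ) * lamD xt w v P R

/-- local `κ₂` -/
def kap2Loc (v : Pl) (D : X →₀ ℤ) : ℝ :=
  ∑ P ∈ D.support, ((D P : ℝ) * ((D P : ℝ) - 1) / 2) * (lam v (tau P) - 2 * lam v (xt P))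

omit [DecidableEq X] [Finite κ] in
theorem az_hgtLoc (hxt : ∀ P, xt P ≠ 0) (D : X →₀ ℤ) : AZ (fun v => hgtLoc xt v D) :=
  AZ.sum _ fun P _ => (az_lam (hxt P)).const_mul _

omit [DecidableEq X] [Finite κ] in
theorem tot_hgtLoc (hxt : ∀ P, xt P ≠ 0) (D : X →₀ ℤ) :
    tot (fun v => hgtLoc xt v D) = hgt xt D := by
  unfold hgtLoc hgt
  rw [tot_sum _ fun P _ => (az_lam (hxt P)).const_mul _]
  refine Finset.sum_congr rfl fun P _ => ?_
  rw [tot_const_mul]
  rfl

omit [DecidableEq X] in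
theorem az_hDeltaLoc (hxt : ∀ P, xt P ≠ 0) (hw : ∀ P R, P ≠ R → w P R ≠ 0) {D E : X →₀ ℤ}
    (hDE : Disjoint D.support E.support) : AZ (fun v => hDeltaLoc xt w v D E) := by
  refine AZ.sum _ fun P hP => AZ.sum _ fun R hR => ?_
  have hne : P ≠ R := fun h => (Finset.disjoint_left.mp hDE hP) (h ▸ hR)
  exact (az_lamD xt w hxt (hw P R hne)).const_mul _

omit [DecidableEq X] in
theorem tot_hDeltaLoc (hxt : ∀ P, xt P ≠ 0) (hw : ∀ P R, P ≠ R → w P R ≠ 0) {D E : X →₀ ℤ}
    (hDE : Disjoint D.support E.support) :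
    tot (fun v => hDeltaLoc xt w v D E) = hDelta xt w D E := by
  unfold hDeltaLoc hDelta
  have hne : ∀ P ∈ D.support, ∀ R ∈ E.support, P ≠ R := fun P hP R hR h =>
    (Finset.disjoint_left.mp hDE hP) (h ▸ hR)
  rw [tot_sum _ fun P hP => AZ.sum _ fun R hR =>
    (az_lamD xt w hxt (hw P R (hne P hP R hR))).const_mul _]
  refine Finset.sum_congr rfl fun P hP => ?_
  rw [tot_sum _ fun R hR => (az_lamD xt w hxt (hw P R (hne P hP R hR))).const_mul _]
  refine Finset.sum_congr rfl fun R hR => ?_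
  rw [tot_const_mul, tot_lamD xt w hxt (hw P R (hne P hP R hR))]
  rfl

theorem az_proxLoc (hxt : ∀ P, xt P ≠ 0) (hw : ∀ P R, P ≠ R → w P R ≠ 0) (D : X →₀ ℤ) :
    AZ (fun v => proxLoc xt w v D) := by
  unfold proxLoc
  refine AZ.const_mul (AZ.sum _ fun P _ => AZ.sum _ fun R hR => ?_) _
  exact (az_lamD xt w hxt (hw P R (Finset.ne_of_mem_erase hR).symm)).const_mul _

theorem tot_proxLoc (hxt : ∀ P, xt P ≠ 0) (hw : ∀ P R, P ≠ R → w P R ≠ 0) (D : X →₀ ℤ) :
    tot (fun v => proxLoc xt w v D) = prox xt w D := by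
  unfold proxLoc prox
  rw [tot_const_mul, tot_sum _ fun P _ => AZ.sum _ fun R hR =>
    (az_lamD xt w hxt (hw P R (Finset.ne_of_mem_erase hR).symm)).const_mul _]
  congr 1
  refine Finset.sum_congr rfl fun P _ => ?_
  rw [tot_sum _ fun R hR =>
    (az_lamD xt w hxt (hw P R (Finset.ne_of_mem_erase hR).symm)).const_mul _]
  refine Finset.sum_congr rfl fun R hR => ?_
  rw [tot_const_mul, tot_lamD xt w hxt (hw P R (Finset.ne_of_mem_erase hR).symm)]
  rfl

omit [DecidableEq X] in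
theorem az_kap2Loc (hxt : ∀ P, xt P ≠ 0) (htau : ∀ P, tau P ≠ 0) (D : X →₀ ℤ) :
    AZ (fun v => kap2Loc xt tau v D) :=
  AZ.sum _ fun P _ => ((az_lam (htau P)).sub ((az_lam (hxt P)).const_mul 2)).const_mul _

omit [DecidableEq X] in
theorem tot_kap2Loc (hxt : ∀ P, xt P ≠ 0) (htau : ∀ P, tau P ≠ 0) (D : X →₀ ℤ) :
    tot (fun v => kap2Loc xt tau v D) = kap2 xt tau D := by
  unfold kap2Loc kap2 kt
  rw [tot_sum _ fun P _ =>
    ((az_lam (htau P)).sub ((az_lam (hxt P)).const_mul 2)).const_mul _]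
  refine Finset.sum_congr rfl fun P _ => ?_
  rw [tot_const_mul, tot_sub (az_lam (htau P)) ((az_lam (hxt P)).const_mul 2), tot_const_mul]
  rfl

omit [DecidableEq X] [Finite ι] [Finite κ] in
/-- `h_Δ` is the bilinear extension of `lamG` -/
theorem hDelta_eq_Bil (D E : X →₀ ℤ) : hDelta xt w D E = Bil (lamG xt w) D E :=
  (Bil_eq_sum (lamG xt w) D E).symm

omit [DecidableEq X] [Finite ι] [Finite κ] in
theorem hDelta_sum_right {S : Type*} (s : Finset S) (D : X →₀ ℤ) (B : S → X →₀ ℤ) :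
    hDelta xt w D (∑ i ∈ s, B i) = ∑ i ∈ s, hDelta xt w D (B i) := by
  classical
  simp only [hDelta_eq_Bil]
  induction s using Finset.induction_on with
  | empty => simp [Bil_zero_right]
  | insert i s hi ih => rw [Finset.sum_insert hi, Finset.sum_insert hi, Bil_add_right, ih]

/-- **B.11, abstract global form.**  `Δ s` (`s : S`, `m = card S`) nonzero numbers with
`∑_s totalLog (Δ s) = 0`; at every place the local determinant bound B.10 in logarithmic form
with constants `K s v` (almost all zero). -/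
theorem prox_le_of_local_det {S : Type*} [Fintype S] [Nonempty S]
    (hdata : GoodData xt w tau) (D E : X →₀ ℤ) (B : S → X →₀ ℤ)
    (hDE : Disjoint D.support E.support) (hDB : ∀ s, Disjoint D.support (B s).support)
    (Δ : S → Qbar) (h0 : ∀ s, Δ s ≠ 0) (hPi : ∑ s, totalLog (Δ s) = 0)
    (K : S → Pl → ℝ) (hK : ∀ s, AZ (K s)) (e : ℕ)
    (hloc : ∀ s v, logAbs v (Δ s) ≤ K s v - proxLoc xt w v D + (e : ℝ) * hgtLoc xt v D
      - hDeltaLoc xt w v D E - hDeltaLoc xt w v D (B s) + kap2Loc xt tau v D) :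
    prox xt w D ≤ ((e : ℝ) * hgt xt D - hDelta xt w D E)
      - (1 / (Fintype.card S : ℝ)) * hDelta xt w D (∑ s, B s) + kap2 xt tau D
      + (1 / (Fintype.card S : ℝ)) * ∑ s, tot (K s) := by
  obtain ⟨hxt, hw, htau⟩ := hdata
  have hm : (0 : ℝ) < (Fintype.card S : ℝ) := by exact_mod_cast Fintype.card_pos
  -- the global inequality for each `s`
  have hs : ∀ s, totalLog (Δ s) ≤ tot (K s) - prox xt w D + (e : ℝ) * hgt xt D
      - hDelta xt w D E - hDelta xt w D (B s) + kap2 xt tau D := by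
    intro s
    have a1 := az_proxLoc xt w hxt hw D
    have a2 := (az_hgtLoc xt hxt D).const_mul (e : ℝ)
    have a3 := az_hDeltaLoc xt w hxt hw hDE
    have a4 := az_hDeltaLoc xt w hxt hw (hDB s)
    have a5 := az_kap2Loc xt tau hxt htau D
    have h1 := tot_mono (az_logAbs (h0 s))
      ((((((hK s).sub a1).add a2).sub a3).sub a4).add a5) (hloc s)
    rw [← totalLog_eq_tot, tot_add (((((hK s).sub a1).add a2).sub a3).sub a4) a5,
      tot_sub ((((hK s).sub a1).add a2).sub a3) a4, tot_sub (((hK s).sub a1).add a2) a3,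
      tot_add ((hK s).sub a1) a2, tot_sub (hK s) a1, tot_const_mul,
      tot_proxLoc xt w hxt hw D, tot_hgtLoc xt hxt D, tot_hDeltaLoc xt w hxt hw hDE,
      tot_hDeltaLoc xt w hxt hw (hDB s), tot_kap2Loc xt tau hxt htau D] at h1
    exact h1
  -- sum over `s`
  have hsum := Finset.sum_le_sum fun s (_ : s ∈ Finset.univ) => hs s
  rw [hPi] at hsum
  simp only [Finset.sum_add_distrib, Finset.sum_sub_distrib, Finset.sum_const, Finset.card_univ,
    nsmul_eq_mul] at hsum
  rw [hDelta_sum_right]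
  have hinv : (1 / (Fintype.card S : ℝ)) * (Fintype.card S : ℝ) = 1 := by
    field_simp
  -- divide by `m`
  have key : (Fintype.card S : ℝ) * prox xt w D ≤
      (Fintype.card S : ℝ) * (((e : ℝ) * hgt xt D - hDelta xt w D E) + kap2 xt tau D)
        - (∑ s, hDelta xt w D (B s)) + ∑ s, tot (K s) := by
    linarith
  have key2 := mul_le_mul_of_nonneg_left key (le_of_lt (one_div_pos.mpr hm))
  have e1 : 1 / (Fintype.card S : ℝ) * ((Fintype.card S : ℝ) * prox xt w D) = prox xt w D := by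
    rw [← mul_assoc, hinv, one_mul]
  have e2 : 1 / (Fintype.card S : ℝ) *
      ((Fintype.card S : ℝ) * (((e : ℝ) * hgt xt D - hDelta xt w D E) + kap2 xt tau D)
        - (∑ s, hDelta xt w D (B s)) + ∑ s, tot (K s)) =
      ((e : ℝ) * hgt xt D - hDelta xt w D E)
      - (1 / (Fintype.card S : ℝ)) * (∑ s, hDelta xt w D (B s)) + kap2 xt tau D
      + (1 / (Fintype.card S : ℝ)) * ∑ s, tot (K s) := by
    have : 1 / (Fintype.card S : ℝ) *
        ((Fintype.card S : ℝ) * (((e : ℝ) * hgt xt D - hDelta xt w D E) + kap2 xt tau D)) =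
        ((e : ℝ) * hgt xt D - hDelta xt w D E) + kap2 xt tau D := by
      rw [← mul_assoc, hinv, one_mul]
    rw [mul_add, mul_sub, this]
    ring
  rw [e1, e2] at key2
  exact key2

end Local

end Fermat.Agent.S17.Ht
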