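import Fermat.Agent.S17.Ht.Places

/-!
# PROJECT H (S17), height stock: monotonicity, comparison with Mathlib's height over `ℚ`, Northcott

For a rational tuple the total logarithmic sup norm `totalLam` at the fixed places of `Qbar`
is Mathlib's `Height.logHeight` over `ℚ`; hence Northcott for rational tuples normalised at one
coordinate.
-/

set_option autoImplicit false

noncomputable section

namespace Fermat.Agent.S17.Ht

section Mono

variable {ι κ : Type*} [Finite ι] [Finite κ]

omit [Finite κ] in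
theorem nrm_comp_le (v : Pl) (f : κ → ι) (x : ι → Qbar) : nrm v (x ∘ f) ≤ nrm v x :=
  nrm_le (nrm_nonneg v x) fun k => absAt_le_nrm v x (f k)

/-- monotonicity of the total logarithmic sup norm -/
theorem totalLam_le_totalLam {x : ι → Qbar} {y : κ → Qbar} (hx : x ≠ 0) (hy : y ≠ 0)
    (h : ∀ v, nrm v x ≤ nrm v y) : totalLam x ≤ totalLam y := by
  unfold totalLam
  refine add_le_add (Real.log_le_log (nrm_pos hx) (h none)) ?_
  exact finsum_le_finsum' (finite_support_lam hx) (finite_support_lam hy)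
    fun p => Real.log_le_log (nrm_pos hx) (h (some p))

theorem totalLam_comp_le (f : κ → ι) {x : ι → Qbar} (hxf : x ∘ f ≠ 0) :
    totalLam (x ∘ f) ≤ totalLam x := by
  have hx : x ≠ 0 := fun h => hxf (by rw [h]; rfl)
  exact totalLam_le_totalLam hxf hx fun v => nrm_comp_le v f x

theorem one_le_nrm_of_eq_one (v : Pl) {x : ι → Qbar} {i : ι} (hi : x i = 1) : 1 ≤ nrm v x := by
  have h := absAt_le_nrm v x i
  rwa [hi, map_one] at h

theorem totalLam_nonneg_of_eq_one {x : ι → Qbar} {i : ι} (hi : x i = 1) : 0 ≤ totalLam x := by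
  unfold totalLam
  refine add_nonneg (Real.log_nonneg (one_le_nrm_of_eq_one _ hi)) ?_
  exact finsum_nonneg fun p => Real.log_nonneg (one_le_nrm_of_eq_one _ hi)

end Mono

section Rational

variable {ι : Type*} [Fintype ι] [Nonempty ι]

omit [Nonempty ι] in
/-- a coprime integer tuple has sup norm `1` at every prime -/
theorem nrm_some_intCast_of_gcd_eq_one (p : Nat.Primes) {x : ι → ℤ}
    (hx : Finset.univ.gcd x = 1) : nrm (some p) (fun i => ((x i : ℤ) : Qbar)) = 1 := by
  have H : ∀ n : ℤ, absAt (some p) (n : Qbar) ≤ 1 := fun n =>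
    absAt_some_le_one_of_isIntegral p (isIntegral_algebraMap (R := ℤ) (A := Qbar) (x := n))
  refine le_antisymm (nrm_le zero_le_one fun i => H (x i)) ?_
  obtain ⟨f, hf⟩ := Finset.gcd_eq_sum_mul Finset.univ x
  rw [hx] at hf
  have h1 : (1 : Qbar) = ∑ i, ((x i : ℤ) : Qbar) * ((f i : ℤ) : Qbar) := by
    have := congrArg (Int.cast : ℤ → Qbar) hf
    push_cast at this
    exact this
  have h2 : absAt (some p) (1 : Qbar) ≤ nrm (some p) (fun i => ((x i : ℤ) : Qbar)) := by
    rw [h1]
    refine (IsNonarchimedean.apply_sum_univ_le (isNonarchimedean_absAt_some p)).trans ?_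
    refine Real.iSup_le (fun i => ?_) (nrm_nonneg _ _)
    rw [map_mul]
    calc absAt (some p) ((x i : ℤ) : Qbar) * absAt (some p) ((f i : ℤ) : Qbar)
        ≤ absAt (some p) ((x i : ℤ) : Qbar) * 1 :=
          mul_le_mul_of_nonneg_left (H (f i)) ((absAt (some p)).nonneg _)
      _ = absAt (some p) ((x i : ℤ) : Qbar) := mul_one _
      _ ≤ _ := absAt_le_nrm (some p) (fun i => ((x i : ℤ) : Qbar)) i
  rwa [map_one] at h2


theorem absAt_none_intCast (n : ℤ) : absAt none (n : Qbar) = ((|n| : ℤ) : ℝ) := by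
  have := absAt_none_rat (n : ℚ)
  rw [Rat.cast_intCast, Rat.cast_intCast] at this
  rw [this, Int.cast_abs]

theorem nrm_none_intCast (x : ι → ℤ) :
    nrm none (fun i => ((x i : ℤ) : Qbar)) = ((⨆ i, |x i| : ℤ) : ℝ) := by
  unfold nrm
  simp only [absAt_none_intCast]
  exact (Finite.map_iSup_of_monotone (fun i => |x i|) (Int.cast_mono (R := ℝ))).symm

/-- the total logarithmic sup norm of a coprime integer tuple -/
theorem totalLam_intCast_of_gcd_eq_one {x : ι → ℤ} (hx : Finset.univ.gcd x = 1) :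
    totalLam (fun i => ((x i : ℤ) : Qbar)) = Real.log ((⨆ i, |x i| : ℤ) : ℝ) := by
  unfold totalLam lam
  rw [nrm_none_intCast]
  simp only [nrm_some_intCast_of_gcd_eq_one _ hx, Real.log_one, finsum_zero, add_zero]


omit [Nonempty ι] in
/-- every nonzero rational tuple is a rational multiple of a coprime integer tuple -/
theorem exists_smul_intCast_of_ne_zero {x : ι → ℚ} (hx : x ≠ 0) :
    ∃ (c : ℚ) (y : ι → ℤ), c ≠ 0 ∧ Finset.univ.gcd y = 1 ∧ x = c • fun i => ((y i : ℤ) : ℚ) := by
  classical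
  obtain ⟨i₀, hi₀⟩ := Function.ne_iff.mp hx
  obtain ⟨b, hb⟩ := IsLocalization.exist_integer_multiples_of_finite (nonZeroDivisors ℤ) x
  choose z hz using hb
  have hb0 : ((b : ℤ) : ℚ) ≠ 0 := Int.cast_ne_zero.mpr (nonZeroDivisors.coe_ne_zero b)
  have hz' : ∀ i, ((z i : ℤ) : ℚ) = ((b : ℤ) : ℚ) * x i := fun i => by
    have := hz i
    rw [Algebra.smul_def] at this
    simpa using this
  have hzi₀ : z i₀ ≠ 0 := by
    intro h0
    have := hz' i₀
    rw [h0, Int.cast_zero] at this
    exact (mul_ne_zero hb0 hi₀) this.symm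
  obtain ⟨y, hy, hgcd⟩ := Finset.extract_gcd z (Finset.univ_nonempty_iff.mpr ⟨i₀⟩)
  have hd0 : Finset.univ.gcd z ≠ 0 := by
    intro h0
    exact hzi₀ ((Finset.gcd_eq_zero_iff.mp h0) i₀ (Finset.mem_univ _))
  refine ⟨((Finset.univ.gcd z : ℤ) : ℚ) / ((b : ℤ) : ℚ), y,
    div_ne_zero (Int.cast_ne_zero.mpr hd0) hb0, hgcd, ?_⟩
  funext i
  have h1 := hz' i
  rw [hy i (Finset.mem_univ _)] at h1
  push_cast at h1
  simp only [Pi.smul_apply, smul_eq_mul]
  field_simp
  linarith

/-- **comparison with Mathlib's height over `ℚ`** -/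
theorem totalLam_ratCast_eq_logHeight {x : ι → ℚ} (hx : x ≠ 0) :
    totalLam (fun i => ((x i : ℚ) : Qbar)) = Height.logHeight x := by
  obtain ⟨c, y, hc, hgcd, rfl⟩ := exists_smul_intCast_of_ne_zero hx
  rw [Height.logHeight_smul_eq_logHeight _ hc]
  have h1 : (fun i => (((c • fun i => ((y i : ℤ) : ℚ)) i : ℚ) : Qbar)) =
      (c : Qbar) • fun i => ((y i : ℤ) : Qbar) := by
    funext i
    simp
  have hy0 : (fun i => ((y i : ℤ) : Qbar)) ≠ 0 := by
    intro h0
    apply hx
    funext i
    have := congrFun h0 i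
    simp only [Pi.zero_apply, Int.cast_eq_zero] at this
    simp [this]
  rw [h1, totalLam_smul (Rat.cast_ne_zero.mpr hc) hy0, totalLog_ratCast hc, zero_add,
    totalLam_intCast_of_gcd_eq_one hgcd]
  exact (Rat.logHeight_eq_max_abs_of_gcd_eq_one hgcd).symm


/-- **Northcott over `ℚ` in the language of the fixed places**: finitely many rational tuples with
one coordinate normalised to `1` have bounded total logarithmic sup norm. -/
theorem finite_setOf_totalLam_ratCast_le (B : ℝ) (i₀ : ι) :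
    {x : ι → ℚ | x i₀ = 1 ∧ totalLam (fun i => ((x i : ℚ) : Qbar)) ≤ B}.Finite := by
  have hfin : (Set.pi Set.univ fun _ : ι => {r : ℚ | Height.logHeight₁ r ≤ B}).Finite :=
    Set.Finite.pi fun _ => NumberField.finite_setOfPred_logHeight₁_le ℚ B
  refine hfin.subset fun x hx => ?_
  obtain ⟨h1, h2⟩ := hx
  have hx0 : x ≠ 0 := fun h0 => by
    rw [h0] at h1
    exact zero_ne_one h1
  rw [totalLam_ratCast_eq_logHeight hx0] at h2
  intro i _
  show Height.logHeight₁ (x i) ≤ B
  rw [Height.logHeight₁_eq_logHeight]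
  have h3 : ![x i, 1] = x ∘ ![i, i₀] := by
    funext k
    fin_cases k <;> simp [h1]
  rw [h3]
  exact (Height.logHeight_comp_le _ x).trans h2

end Rational

end Fermat.Agent.S17.Ht
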