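import Fermat.Agent.S17.Ht.Positivity

/-!
# PROJECT H (S17), seam S-8 (global bookkeeping): B.14 (5) in `B`-form and the last line of B.14

After the amendments (A1), (A2) of the Part-B architect the degree-zero lemma B.13' is a statement
about the bilinear form `B = Bil (bGlob ..)`:  `|B(D - r ∞, E - d_E ∞)| ≤ ε N(D) + C`.
`Ht/Positivity.Qf_bGlob_ge` consumes lower bounds for `hDelta D E`.  This file converts:

* `hDelta_eq_Bil_lamG`           `hDelta D E = Bil (lamG ..) D E`, hence additivity in both slots;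
* `hDelta_eq_of_disjoint`   (PB1) the exact conversion for disjoint supports;
* `hDelta_ge`               (PB2) `= (5a)`: `(d_E - ε) N(D) - C' ≤ hDelta D E`;
* `sum_hDelta_ge`, `hDelta_sum_nsmul_right`, `inv_mul_hDelta_ge`  (PB3) `= (5b)` for a weighted family;
* `Qf_sub_single_ge`        (PB4) `= (1) + (6)`: `q(x) = Qf (D - r ∞) ≥ (1/2) N(D) - C₄`;
* `pos_main`                the one-call corollary of `Qf_bGlob_ge`.
-/

set_option autoImplicit false

noncomputable section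

namespace Fermat.Agent.S17.Ht.PosB

open Fermat.Agent.S17.Ht Fermat.Agent.S17.Abs.PairQuad Finsupp

variable {X : Type*} [DecidableEq X] {ι κ : Type*} [Finite ι] [Finite κ]
variable (xt : X → ι → Qbar) (w : X → X → κ → Qbar) (tau : X → κ → Qbar) (δ : ℕ)

/-! ### `hDelta` as a bilinear extension -/

omit [DecidableEq X] [Finite ι] [Finite κ] in
theorem hDelta_eq_Bil_lamG (D E : X →₀ ℤ) : hDelta xt w D E = Bil (lamG xt w) D E :=
  (Bil_eq_sum (lamG xt w) D E).symm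

omit [DecidableEq X] [Finite ι] [Finite κ] in
theorem hDelta_add_right (D E E' : X →₀ ℤ) :
    hDelta xt w D (E + E') = hDelta xt w D E + hDelta xt w D E' := by
  rw [hDelta_eq_Bil_lamG, hDelta_eq_Bil_lamG, hDelta_eq_Bil_lamG, Bil_add_right]

omit [DecidableEq X] [Finite ι] [Finite κ] in
theorem hDelta_add_left (D D' E : X →₀ ℤ) :
    hDelta xt w (D + D') E = hDelta xt w D E + hDelta xt w D' E := by
  rw [hDelta_eq_Bil_lamG, hDelta_eq_Bil_lamG, hDelta_eq_Bil_lamG, Bil_add_left]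

omit [DecidableEq X] [Finite ι] [Finite κ] in
theorem hDelta_zero_right (D : X →₀ ℤ) : hDelta xt w D 0 = 0 := by
  rw [hDelta_eq_Bil_lamG, Bil_zero_right]

omit [DecidableEq X] in
theorem Bil_nsmul_right (b : X → X → ℝ) (D E : X →₀ ℤ) (n : ℕ) :
    Bil b D (n • E) = (n : ℝ) * Bil b D E := by
  induction n with
  | zero => simp [Bil_zero_right]
  | succ n ih =>
    rw [succ_nsmul, Bil_add_right, ih]
    push_cast
    ring

omit [DecidableEq X] in
theorem Bil_sum_right {J : Type*} (b : X → X → ℝ) (D : X →₀ ℤ) (s : Finset J) (E : J → X →₀ ℤ) :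
    Bil b D (∑ j ∈ s, E j) = ∑ j ∈ s, Bil b D (E j) := by
  classical
  induction s using Finset.induction_on with
  | empty => simp [Bil_zero_right]
  | insert a s ha ih => rw [Finset.sum_insert ha, Finset.sum_insert ha, Bil_add_right, ih]

omit [DecidableEq X] in
theorem Bil_single_right (b : X → X → ℝ) (D : X →₀ ℤ) (P : X) (m : ℤ) :
    Bil b D (single P m) = (m : ℝ) * Bil b D (single P 1) := by
  induction D using Finsupp.induction_linear with
  | zero => simp [Bil_zero_left]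
  | add E E' hE hE' => rw [Bil_add_left, Bil_add_left, hE, hE']; ring
  | single R n => rw [Bil_single_single, Bil_single_single]; push_cast; ring

omit [DecidableEq X] [Finite ι] [Finite κ] in
/-- (PB3), additivity: `hDelta D (∑ n_j • O_j) = ∑ n_j * hDelta D O_j` -/
theorem hDelta_sum_nsmul_right {J : Type*} (D : X →₀ ℤ) (s : Finset J) (n : J → ℕ) (O : J → X →₀ ℤ) :
    hDelta xt w D (∑ j ∈ s, n j • O j) = ∑ j ∈ s, (n j : ℝ) * hDelta xt w D (O j) := by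
  rw [hDelta_eq_Bil_lamG, Bil_sum_right]
  refine Finset.sum_congr rfl fun j _ => ?_
  rw [Bil_nsmul_right, hDelta_eq_Bil_lamG]

/-! ### (PB1): the exact conversion -/

/-- **(PB1)** for divisors with disjoint supports: `h_Δ(D,E)` through the bilinear form on the
degree-zero parts `D - r ∞`, `E - d_E ∞` -/
theorem hDelta_eq_of_disjoint (hdata : GoodData xt w tau) (oo : X) {D E : X →₀ ℤ}
    (hDE : Disjoint D.support E.support) {r dE : ℤ} (hr : degR D = r) (hdE : degR E = dE) :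
    hDelta xt w D E =
      (dE : ℝ) * Nht xt δ D + (r : ℝ) * hgt xt E / (δ : ℝ)
        - Bil (bGlob xt w tau δ) (D - single oo r) (E - single oo dE)
        - (dE : ℝ) * Bil (bGlob xt w tau δ) D (single oo 1)
        - (r : ℝ) * Bil (bGlob xt w tau δ) (single oo 1) E
        + (r : ℝ) * (dE : ℝ) * bGlob xt w tau δ oo oo := by
  have h1 := BB_of_disjoint xt w tau δ hdata.1 hdata.2.1 hDE
  rw [BB_eq_Bil, hr, hdE] at h1
  have h2 : Bil (bGlob xt w tau δ) (D - single oo r) (E - single oo dE) =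
      Bil (bGlob xt w tau δ) D E - (dE : ℝ) * Bil (bGlob xt w tau δ) D (single oo 1)
        - (r : ℝ) * Bil (bGlob xt w tau δ) (single oo 1) E
        + (r : ℝ) * (dE : ℝ) * bGlob xt w tau δ oo oo := by
    rw [Bil_sub_left, Bil_sub_right, Bil_sub_right, Bil_single_right _ D oo dE,
      Bil_single_left _ oo r E, Bil_single_single]
    ring
  unfold Nht
  rw [h2, h1]
  ring

/-! ### (PB2) = (5a) -/

/-- **(PB2) = B.14 (5a)**: the degree-zero lemma in `B`-form gives the lower bound for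
`h_Δ(D,E)` consumed by `Qf_bGlob_ge` -/
theorem hDelta_ge (hdata : GoodData xt w tau) (oo : X) {D E : X →₀ ℤ}
    (hDE : Disjoint D.support E.support) {r dE : ℤ} (hr : degR D = r) (hdE : degR E = dE)
    (hr0 : 0 ≤ r) (hdE0 : 0 ≤ dE) {ε C Coo : ℝ}
    (h13 : |Bil (bGlob xt w tau δ) (D - single oo r) (E - single oo dE)|
      ≤ ε * Nht xt δ D + C)
    (hoo : |Bil (bGlob xt w tau δ) D (single oo 1)| ≤ Coo * r) :
    ((dE : ℝ) - ε) * Nht xt δ D
        - (C + (dE : ℝ) * Coo * r + (r : ℝ) * |Bil (bGlob xt w tau δ) (single oo 1) E|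
          + (r : ℝ) * (dE : ℝ) * |bGlob xt w tau δ oo oo| + (r : ℝ) * |hgt xt E| / (δ : ℝ))
      ≤ hDelta xt w D E := by
  rw [hDelta_eq_of_disjoint xt w tau δ hdata oo hDE hr hdE]
  have hr' : (0 : ℝ) ≤ (r : ℝ) := by exact_mod_cast hr0
  have hd' : (0 : ℝ) ≤ (dE : ℝ) := by exact_mod_cast hdE0
  have hδ0 : (0 : ℝ) ≤ (δ : ℝ) := Nat.cast_nonneg δ
  have a1 := abs_le.mp h13
  have a2 := abs_le.mp hoo
  have a3 := neg_abs_le (Bil (bGlob xt w tau δ) (single oo 1) E)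
  have a3' := le_abs_self (Bil (bGlob xt w tau δ) (single oo 1) E)
  have a4 := neg_abs_le (bGlob xt w tau δ oo oo)
  have a5 : -((r : ℝ) * |hgt xt E| / (δ : ℝ)) ≤ (r : ℝ) * hgt xt E / (δ : ℝ) := by
    rw [← neg_div, ← mul_neg]
    exact div_le_div_of_nonneg_right (mul_le_mul_of_nonneg_left (neg_abs_le _) hr') hδ0
  have b2 : (dE : ℝ) * Bil (bGlob xt w tau δ) D (single oo 1) ≤ (dE : ℝ) * (Coo * r) :=
    mul_le_mul_of_nonneg_left a2.2 hd'
  have b3 : (r : ℝ) * Bil (bGlob xt w tau δ) (single oo 1) E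
      ≤ (r : ℝ) * |Bil (bGlob xt w tau δ) (single oo 1) E| :=
    mul_le_mul_of_nonneg_left a3' hr'
  have b4 : -((r : ℝ) * (dE : ℝ) * |bGlob xt w tau δ oo oo|)
      ≤ (r : ℝ) * (dE : ℝ) * bGlob xt w tau δ oo oo := by
    rw [← mul_neg]
    exact mul_le_mul_of_nonneg_left a4 (mul_nonneg hr' hd')
  linarith [a1.2]

/-- (PB2) in the literal shape of hypothesis `h13a` of `Qf_bGlob_ge` (`ε = 1/3`,
`d_E = e δ - 2g + 2`) -/
theorem h13a_of_Bil (hdata : GoodData xt w tau) (oo : X) {D E : X →₀ ℤ}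
    (hDE : Disjoint D.support E.support) {r dE : ℤ} (hr : degR D = r) (hdE : degR E = dE)
    (hr0 : 0 ≤ r) (hdE0 : 0 ≤ dE) {e : ℕ} {g C Coo : ℝ}
    (hdeg : (dE : ℝ) = (e : ℝ) * δ - 2 * g + 2)
    (h13 : |Bil (bGlob xt w tau δ) (D - single oo r) (E - single oo dE)|
      ≤ 1 / 3 * Nht xt δ D + C)
    (hoo : |Bil (bGlob xt w tau δ) D (single oo 1)| ≤ Coo * r) :
    ((e : ℝ) * δ - 2 * g + 2 - 1 / 3) * Nht xt δ D
        - (C + (dE : ℝ) * Coo * r + (r : ℝ) * |Bil (bGlob xt w tau δ) (single oo 1) E|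
          + (r : ℝ) * (dE : ℝ) * |bGlob xt w tau δ oo oo| + (r : ℝ) * |hgt xt E| / (δ : ℝ))
      ≤ hDelta xt w D E := by
  have h := hDelta_ge xt w tau δ hdata oo hDE hr hdE hr0 hdE0 h13 hoo
  have e1 : (dE : ℝ) - 1 / 3 = (e : ℝ) * δ - 2 * g + 2 - 1 / 3 := by rw [hdeg]
  rwa [e1] at h

/-! ### (PB3) = (5b) -/

omit [DecidableEq X] [Finite ι] [Finite κ] in
/-- **(PB3)**, weighted family form: lower bounds `(m_j - ε) N - C_j ≤ h_Δ(D,O_j)` add up -/
theorem sum_hDelta_ge {J : Type*} (s : Finset J) (D : X →₀ ℤ) (O : J → X →₀ ℤ) (c mO Cc : J → ℝ)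
    (hc : ∀ j ∈ s, 0 ≤ c j) {ε Nn : ℝ}
    (h : ∀ j ∈ s, (mO j - ε) * Nn - Cc j ≤ hDelta xt w D (O j)) :
    ((∑ j ∈ s, c j * mO j) - ε * ∑ j ∈ s, c j) * Nn - ∑ j ∈ s, c j * Cc j
      ≤ ∑ j ∈ s, c j * hDelta xt w D (O j) := by
  have h1 : ((∑ j ∈ s, c j * mO j) - ε * ∑ j ∈ s, c j) * Nn - ∑ j ∈ s, c j * Cc j
      = ∑ j ∈ s, c j * ((mO j - ε) * Nn - Cc j) := by
    rw [Finset.mul_sum, ← Finset.sum_sub_distrib, Finset.sum_mul, ← Finset.sum_sub_distrib]
    refine Finset.sum_congr rfl fun j _ => ?_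
    ring
  rw [h1]
  exact Finset.sum_le_sum fun j hj => mul_le_mul_of_nonneg_left (h j hj) (hc j hj)

omit [DecidableEq X] [Finite ι] [Finite κ] in
/-- **(PB3) = B.14 (5b)** in the literal shape of hypothesis `h13b` of `Qf_bGlob_ge`:
`Bt = ∑ n_j • O_j` with `∑ n_j m_j = m (g - r)` (degree count), `∑ n_j ≤ m G`, per-orbit lower
bounds with `ε G ≤ 1/3`. -/
theorem inv_mul_hDelta_ge {J : Type*} (s : Finset J) (D : X →₀ ℤ) (O : J → X →₀ ℤ) (n : J → ℕ)
    (mO Cc : J → ℝ) {ε Nn g r m G Cmax : ℝ} (hm : 0 < m) (hN : 0 ≤ Nn) (hε : 0 ≤ ε)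
    (hεG : ε * G ≤ 1 / 3)
    (hdeg : ∑ j ∈ s, (n j : ℝ) * mO j = m * (g - r))
    (hcard : ∑ j ∈ s, (n j : ℝ) ≤ m * G)
    (hC : ∀ j ∈ s, Cc j ≤ Cmax) (hCmax : 0 ≤ Cmax)
    (h : ∀ j ∈ s, (mO j - ε) * Nn - Cc j ≤ hDelta xt w D (O j)) :
    (g - r - 1 / 3) * Nn - G * Cmax ≤ (1 / m) * hDelta xt w D (∑ j ∈ s, n j • O j) := by
  rw [hDelta_sum_nsmul_right]
  have h1 := sum_hDelta_ge xt w s D O (fun j => (n j : ℝ)) mO Cc
    (fun j _ => Nat.cast_nonneg (n j)) h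
  beta_reduce at h1
  rw [hdeg] at h1
  have h2 : ∑ j ∈ s, (n j : ℝ) * Cc j ≤ (∑ j ∈ s, (n j : ℝ)) * Cmax := by
    rw [Finset.sum_mul]
    exact Finset.sum_le_sum fun j hj =>
      mul_le_mul_of_nonneg_left (hC j hj) (Nat.cast_nonneg (n j))
  have h3 : (∑ j ∈ s, (n j : ℝ)) * Cmax ≤ m * G * Cmax :=
    mul_le_mul_of_nonneg_right hcard hCmax
  have h4 : ε * (∑ j ∈ s, (n j : ℝ)) * Nn ≤ ε * (m * G) * Nn :=
    mul_le_mul_of_nonneg_right (mul_le_mul_of_nonneg_left hcard hε) hN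
  have h5 : ε * (m * G) * Nn ≤ m * (1 / 3) * Nn := by
    have : ε * (m * G) = m * (ε * G) := by ring
    rw [this]
    exact mul_le_mul_of_nonneg_right (mul_le_mul_of_nonneg_left hεG hm.le) hN
  have key : m * ((g - r - 1 / 3) * Nn - G * Cmax)
      ≤ ∑ j ∈ s, (n j : ℝ) * hDelta xt w D (O j) := by
    nlinarith [h1, h2, h3, h4, h5]
  rw [show (1 / m) * ∑ j ∈ s, (n j : ℝ) * hDelta xt w D (O j)
      = (∑ j ∈ s, (n j : ℝ) * hDelta xt w D (O j)) / m from by ring, le_div_iff₀ hm]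
  linarith [key]

/-! ### (PB4) = (1) + (6) -/

omit [DecidableEq X] in
/-- **(PB4) = B.14 (1) + (6)**: from `Qf(D) ≥ (1/2) N(D) - C` to
`q(x) = Qf(D - r ∞) ≥ (1/2) N(D) - C₄` -/
theorem Qf_sub_single_ge (b : X → X → ℝ) (hb : ∀ P R, b P R = b R P) (D : X →₀ ℤ) (oo : X)
    {r : ℤ} (hr0 : 0 ≤ r) {Nn C Coo : ℝ} (hQ : (1 / 2) * Nn - C ≤ Qf b D)
    (hoo : |Bil b D (single oo 1)| ≤ Coo * r) :
    (1 / 2) * Nn - (C + Coo * (r : ℝ) ^ 2 + (r : ℝ) ^ 2 / 2 * |b oo oo|)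
      ≤ Qf b (D - single oo r) := by
  rw [Qf_sub_single b hb D oo r]
  have hr' : (0 : ℝ) ≤ (r : ℝ) := by exact_mod_cast hr0
  have a2 := abs_le.mp hoo
  have b2 : (r : ℝ) * Bil b D (single oo 1) ≤ (r : ℝ) * (Coo * r) :=
    mul_le_mul_of_nonneg_left a2.2 hr'
  have b3 : -((r : ℝ) ^ 2 / 2 * |b oo oo|) ≤ (r : ℝ) ^ 2 / 2 * b oo oo := by
    rw [← mul_neg]
    exact mul_le_mul_of_nonneg_left (neg_abs_le _) (by positivity)
  nlinarith [hQ, b2, b3]

/-- **B.14, one call**: the four global inequalities (B.11 = `h11`, B.12 = `h12`, B.13' for `E` in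
`B`-form = `h13`, (5b) in `hDelta`-form = `h13b`) and the bound for `B(D,∞)` give
`q(x) = Qf (D - r ∞) ≥ (1/2) N(D) - C₄`. -/
theorem pos_main (hδ : δ ≠ 0) (hdata : GoodData xt w tau)
    (hb : ∀ P R, bGlob xt w tau δ P R = bGlob xt w tau δ R P) (oo : X) (D E Bt : X →₀ ℤ)
    (hDE : Disjoint D.support E.support) {r dE : ℤ} (hr : degR D = r) (hdE : degR E = dE)
    (hr0 : 0 ≤ r) (hdE0 : 0 ≤ dE) {e : ℕ} {g m C5 C6 C C8 Coo : ℝ}
    (hdeg : (dE : ℝ) = (e : ℝ) * δ - 2 * g + 2)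
    (h11 : prox xt w D ≤ ((e : ℝ) * hgt xt D - hDelta xt w D E) - (1 / m) * hDelta xt w D Bt
      + kap2 xt tau D + C5)
    (h12 : (e : ℝ) * hgt xt D - hDelta xt w D E ≤ kapTau xt tau D + C6 * r)
    (h13 : |Bil (bGlob xt w tau δ) (D - single oo r) (E - single oo dE)|
      ≤ 1 / 3 * Nht xt δ D + C)
    (h13b : (g - r - 1 / 3) * Nht xt δ D - C8 ≤ (1 / m) * hDelta xt w D Bt)
    (hoo : |Bil (bGlob xt w tau δ) D (single oo 1)| ≤ Coo * r) :
    (1 / 2) * Nht xt δ D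
        - ((C5 + C6 * r / 2
            + (C + (dE : ℝ) * Coo * r
                + (r : ℝ) * |Bil (bGlob xt w tau δ) (single oo 1) E|
                + (r : ℝ) * (dE : ℝ) * |bGlob xt w tau δ oo oo|
                + (r : ℝ) * |hgt xt E| / (δ : ℝ)) / 2
            + C8)
          + Coo * (r : ℝ) ^ 2 + (r : ℝ) ^ 2 / 2 * |bGlob xt w tau δ oo oo|)
      ≤ Qf (bGlob xt w tau δ) (D - single oo r) := by
  have h13a := h13a_of_Bil xt w tau δ hdata oo hDE hr hdE hr0 hdE0 hdeg h13 hoo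
  have hQ := Qf_bGlob_ge xt w tau δ hδ hdata D E Bt hr h11 h12 h13a h13b
  exact Qf_sub_single_ge (bGlob xt w tau δ) hb D oo hr0 hQ hoo

end Fermat.Agent.S17.Ht.PosB
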