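import Fermat.Agent.S17.Ht.Recip

/-!
# PROJECT H (S17), seam S-7/S-8 (global bookkeeping): heights of divisors and the self-pairing

Global quantities attached to a divisor `D : X →₀ ℤ` in the abstract frame of `Ht/Recip.lean`
(`xt`, `w`, `tau`, `δ`):

* `hgt D = ∑_P D P * totalLam (xt P)` (`= h(D)`), `Nht D = h(D)/δ`,
* `kt P = totalLam (tau P) - 2 totalLam (xt P)`, `kapTau D = ∑_P D P * kt P`,
* `lamG P R = totalLam (xt P) + totalLam (xt R) - totalLam (w P R)` (`= ∑_v λ_v(P,R)`),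
* `hDelta D E = ∑_P ∑_R D P * E R * lamG P R`, `prox D = ∑_{ {P,R}, P ≠ R } D P * D R * lamG P R`,
* `BB D E = ∑_P ∑_R D P * E R * bGlob P R` (the explicit double sum of the bilinear extension).

Main identity (B.14 (2) of Part B): `BB D D = ∑_P (D P)^2 kt P + 2 deg D * Nht D - 2 prox D`.
-/

set_option autoImplicit false

noncomputable section

namespace Fermat.Agent.S17.Ht

section Global

variable {X : Type*} [DecidableEq X] {ι κ : Type*} [Finite ι] [Finite κ]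
variable (xt : X → ι → Qbar) (w : X → X → κ → Qbar) (tau : X → κ → Qbar) (δ : ℕ)

/-- the degree, as a real number -/
def degR (D : X →₀ ℤ) : ℝ := ∑ P ∈ D.support, (D P : ℝ)

/-- `h(D)` -/
def hgt (D : X →₀ ℤ) : ℝ := ∑ P ∈ D.support, (D P : ℝ) * totalLam (xt P)

/-- `N(D) = h(D)/δ` -/
def Nht (D : X →₀ ℤ) : ℝ := hgt xt D / (δ : ℝ)

/-- `κ_τ(P) = ∑_v (t_v(P) - 2 ℓ_v(P))` -/
def kt (P : X) : ℝ := totalLam (tau P) - 2 * totalLam (xt P)

/-- `κ_τ(D)` -/
def kapTau (D : X →₀ ℤ) : ℝ := ∑ P ∈ D.support, (D P : ℝ) * kt xt tau P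

/-- `λ(P,R) = ∑_v λ_v(P,R)` -/
def lamG (P R : X) : ℝ := totalLam (xt P) + totalLam (xt R) - totalLam (w P R)

/-- `h_Δ(D,E)` -/
def hDelta (D E : X →₀ ℤ) : ℝ :=
  ∑ P ∈ D.support, ∑ R ∈ E.support, (D P : ℝ) * (E R : ℝ) * lamG xt w P R

/-- `prox(D) = ∑` over unordered pairs of distinct points of `D P * D R * λ(P,R)` -/
def prox (D : X →₀ ℤ) : ℝ :=
  (1 / 2) * ∑ P ∈ D.support, ∑ R ∈ D.support.erase P, (D P : ℝ) * (D R : ℝ) * lamG xt w P R

/-- the explicit double sum of the bilinear extension of `bGlob` -/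
def BB (D E : X →₀ ℤ) : ℝ :=
  ∑ P ∈ D.support, ∑ R ∈ E.support, (D P : ℝ) * (E R : ℝ) * bGlob xt w tau δ P R

omit [DecidableEq X] in
theorem lamG_eq_tot (hxt : ∀ P, xt P ≠ 0) {P R : X} (hw : w P R ≠ 0) :
    lamG xt w P R = tot (fun v => lamD xt w v P R) := (tot_lamD xt w hxt hw).symm

theorem bGlob_self_eq_kt (hxt : ∀ P, xt P ≠ 0) (htau : ∀ P, tau P ≠ 0) (P : X) :
    bGlob xt w tau δ P P = kt xt tau P + 2 / (δ : ℝ) * totalLam (xt P) := by
  rw [bGlob_self xt w tau δ hxt htau]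
  unfold kt
  ring

theorem bGlob_of_ne_eq_lamG (hxt : ∀ P, xt P ≠ 0) {P R : X} (h : P ≠ R) (hw : w P R ≠ 0) :
    bGlob xt w tau δ P R =
      - lamG xt w P R + (totalLam (xt P) + totalLam (xt R)) / (δ : ℝ) := by
  rw [bGlob_of_ne xt w tau δ hxt h hw]
  rfl

/-- `B(D,E)` for divisors with disjoint supports -/
theorem BB_of_disjoint (hxt : ∀ P, xt P ≠ 0) (hw : ∀ P R, P ≠ R → w P R ≠ 0) {D E : X →₀ ℤ}
    (hDE : Disjoint D.support E.support) :
    BB xt w tau δ D E =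
      - hDelta xt w D E + (degR E * hgt xt D + degR D * hgt xt E) / (δ : ℝ) := by
  unfold BB hDelta degR hgt
  have h1 : ∀ P ∈ D.support, ∀ R ∈ E.support,
      (D P : ℝ) * (E R : ℝ) * bGlob xt w tau δ P R =
        - ((D P : ℝ) * (E R : ℝ) * lamG xt w P R)
          + ((E R : ℝ) * ((D P : ℝ) * totalLam (xt P))
            + (D P : ℝ) * ((E R : ℝ) * totalLam (xt R))) / (δ : ℝ) := by
    intro P hP R hR
    have hne : P ≠ R := fun h => (Finset.disjoint_left.mp hDE hP) (h ▸ hR)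
    rw [bGlob_of_ne_eq_lamG xt w tau δ hxt hne (hw P R hne)]
    ring
  rw [Finset.sum_congr rfl fun P hP => Finset.sum_congr rfl fun R hR => h1 P hP R hR]
  simp only [Finset.sum_add_distrib, Finset.sum_neg_distrib, ← Finset.sum_div]
  congr 1
  congr 1
  rw [Finset.sum_mul, Finset.sum_mul]
  congr 1
  · rw [Finset.sum_comm]
    refine Finset.sum_congr rfl fun R _ => ?_
    rw [Finset.mul_sum]
  · refine Finset.sum_congr rfl fun P _ => ?_
    rw [Finset.mul_sum]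

/-- **B.14 (2)**: the self-pairing of a divisor -/
theorem BB_self (hδ : δ ≠ 0) (hxt : ∀ P, xt P ≠ 0) (hw : ∀ P R, P ≠ R → w P R ≠ 0)
    (htau : ∀ P, tau P ≠ 0) (D : X →₀ ℤ) :
    BB xt w tau δ D D =
      (∑ P ∈ D.support, (D P : ℝ) ^ 2 * kt xt tau P) + 2 * degR D * Nht xt δ D
        - 2 * prox xt w D := by
  have hδ' : (δ : ℝ) ≠ 0 := Nat.cast_ne_zero.mpr hδ
  unfold BB prox Nht hgt degR
  -- split each inner sum into the diagonal term and the rest
  have h1 : ∀ P ∈ D.support,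
      ∑ R ∈ D.support, (D P : ℝ) * (D R : ℝ) * bGlob xt w tau δ P R =
        (D P : ℝ) ^ 2 * kt xt tau P + 2 / (δ : ℝ) * ((D P : ℝ) ^ 2 * totalLam (xt P))
          + ∑ R ∈ D.support.erase P, ((D P : ℝ) * (D R : ℝ) *
              (- lamG xt w P R + (totalLam (xt P) + totalLam (xt R)) / (δ : ℝ))) := by
    intro P hP
    rw [← Finset.add_sum_erase _ _ hP, bGlob_self_eq_kt xt w tau δ hxt htau]
    congr 1
    · ring
    · refine Finset.sum_congr rfl fun R hR => ?_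
      have hne : P ≠ R := (Finset.ne_of_mem_erase hR).symm
      rw [bGlob_of_ne_eq_lamG xt w tau δ hxt hne (hw P R hne)]
  rw [Finset.sum_congr rfl h1]
  -- the sums over the erased supports
  have h2 : ∀ P ∈ D.support,
      ∑ R ∈ D.support.erase P, ((D P : ℝ) * (D R : ℝ) *
          (- lamG xt w P R + (totalLam (xt P) + totalLam (xt R)) / (δ : ℝ))) =
        - (∑ R ∈ D.support.erase P, (D P : ℝ) * (D R : ℝ) * lamG xt w P R)
          + ((D P : ℝ) * totalLam (xt P)) / (δ : ℝ) * (∑ R ∈ D.support.erase P, (D R : ℝ))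
          + (D P : ℝ) / (δ : ℝ) * (∑ R ∈ D.support.erase P, (D R : ℝ) * totalLam (xt R)) := by
    intro P _
    rw [Finset.mul_sum, Finset.mul_sum, ← Finset.sum_neg_distrib, ← Finset.sum_add_distrib,
      ← Finset.sum_add_distrib]
    refine Finset.sum_congr rfl fun R _ => ?_
    ring
  have h3 : ∀ P ∈ D.support, (∑ R ∈ D.support.erase P, (D R : ℝ)) =
      (∑ R ∈ D.support, (D R : ℝ)) - (D P : ℝ) := by
    intro P hP
    rw [← Finset.add_sum_erase _ _ hP]
    ring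
  have h4 : ∀ P ∈ D.support, (∑ R ∈ D.support.erase P, (D R : ℝ) * totalLam (xt R)) =
      (∑ R ∈ D.support, (D R : ℝ) * totalLam (xt R)) - (D P : ℝ) * totalLam (xt P) := by
    intro P hP
    rw [← Finset.add_sum_erase _ _ hP]
    ring
  have h5 : ∀ P ∈ D.support,
      (D P : ℝ) ^ 2 * kt xt tau P + 2 / (δ : ℝ) * ((D P : ℝ) ^ 2 * totalLam (xt P))
          + ∑ R ∈ D.support.erase P, ((D P : ℝ) * (D R : ℝ) *
              (- lamG xt w P R + (totalLam (xt P) + totalLam (xt R)) / (δ : ℝ))) =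
        (D P : ℝ) ^ 2 * kt xt tau P
          - (∑ R ∈ D.support.erase P, (D P : ℝ) * (D R : ℝ) * lamG xt w P R)
          + (∑ R ∈ D.support, (D R : ℝ)) / (δ : ℝ) * ((D P : ℝ) * totalLam (xt P))
          + (∑ R ∈ D.support, (D R : ℝ) * totalLam (xt R)) / (δ : ℝ) * (D P : ℝ) := by
    intro P hP
    rw [h2 P hP, h3 P hP, h4 P hP]
    field_simp
    ring
  rw [Finset.sum_congr rfl h5]
  simp only [Finset.sum_add_distrib, Finset.sum_sub_distrib, ← Finset.mul_sum]
  field_simp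
  ring

end Global

end Fermat.Agent.S17.Ht
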