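import Fermat.Agent.S17.Ht.Tot

/-!
# PROJECT H (S17), height stock: stable divisors and the product formula with multiplicities

`X` is a set with an action of `GQ = Gal(Qbar/ℚ)` (the points of the curve).  A divisor
`D : X →₀ ℤ` is *stable* if its coefficients are constant on Galois orbits; a function
`f : X → Qbar` is *equivariant* if `f (σ • P) = σ (f P)`.  The only global input of Part B of the
H0 text is the product formula for the rational number `∏_P f(P)^{n_P}`.
-/

set_option autoImplicit false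

noncomputable section

namespace Fermat.Agent.S17.Ht

section Stable

variable {X : Type*} [MulAction GQ X]

/-- a divisor with Galois-invariant coefficients -/
def Stable (D : X →₀ ℤ) : Prop := ∀ (σ : GQ) (P : X), D (σ • P) = D P

/-- a Galois-equivariant function on the points -/
def Equivar (f : X → Qbar) : Prop := ∀ (σ : GQ) (P : X), f (σ • P) = σ (f P)

/-- a Galois-equivariant family of tuples -/
def EquivarT {ι : Type*} (x : X → ι → Qbar) : Prop :=
  ∀ (σ : GQ) (P : X) (i : ι), x (σ • P) i = σ (x P i)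

theorem stable_zero : Stable (0 : X →₀ ℤ) := fun _ _ => rfl

theorem Stable.add {D E : X →₀ ℤ} (hD : Stable D) (hE : Stable E) : Stable (D + E) :=
  fun σ P => by rw [Finsupp.add_apply, Finsupp.add_apply, hD σ P, hE σ P]

theorem Stable.neg {D : X →₀ ℤ} (hD : Stable D) : Stable (-D) :=
  fun σ P => by rw [Finsupp.neg_apply, Finsupp.neg_apply, hD σ P]

theorem Stable.sub {D E : X →₀ ℤ} (hD : Stable D) (hE : Stable E) : Stable (D - E) :=
  fun σ P => by rw [Finsupp.sub_apply, Finsupp.sub_apply, hD σ P, hE σ P]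

theorem Stable.smul {D : X →₀ ℤ} (hD : Stable D) (n : ℤ) : Stable (n • D) :=
  fun σ P => by rw [Finsupp.smul_apply, Finsupp.smul_apply, hD σ P]

theorem Stable.smul_mem_support {D : X →₀ ℤ} (hD : Stable D) (σ : GQ) {P : X}
    (hP : P ∈ D.support) : σ • P ∈ D.support := by
  rw [Finsupp.mem_support_iff] at hP ⊢
  rwa [hD σ P]

/-- a point fixed by the Galois group gives a stable divisor -/
theorem stable_single {P : X} (hP : ∀ σ : GQ, σ • P = P) (n : ℤ) :
    Stable (Finsupp.single P n) := by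
  classical
  intro σ R
  rw [Finsupp.single_apply, Finsupp.single_apply]
  by_cases h : P = R
  · rw [if_pos h, if_pos]
    rw [← h, hP σ]
  · rw [if_neg h, if_neg]
    intro h'
    apply h
    have : σ⁻¹ • P = R := by rw [h', inv_smul_smul]
    rw [← this, hP σ⁻¹]

theorem Equivar.mul {f g : X → Qbar} (hf : Equivar f) (hg : Equivar g) :
    Equivar (fun P => f P * g P) := fun σ P => by
  show f (σ • P) * g (σ • P) = σ (f P * g P)
  rw [hf σ P, hg σ P, map_mul]

theorem Equivar.inv {f : X → Qbar} (hf : Equivar f) : Equivar (fun P => (f P)⁻¹) := fun σ P => by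
  show (f (σ • P))⁻¹ = σ ((f P)⁻¹)
  rw [hf σ P, map_inv₀]

theorem equivar_const_rat (r : ℚ) : Equivar (fun _ : X => (r : Qbar)) := fun σ _ => by
  show (r : Qbar) = σ (r : Qbar)
  rw [map_ratCast]

theorem EquivarT.apply {ι : Type*} {x : X → ι → Qbar} (hx : EquivarT x) (i : ι) :
    Equivar (fun P => x P i) := fun σ P => hx σ P i

end Stable

theorem totalLog_pow {a : Qbar} (ha : a ≠ 0) (n : ℕ) : totalLog (a ^ n) = n * totalLog a := by
  induction n with
  | zero => rw [pow_zero, totalLog_one, Nat.cast_zero, zero_mul]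
  | succ n ih =>
    rw [pow_succ, totalLog_mul (pow_ne_zero n ha) ha, ih]
    push_cast
    ring

theorem totalLog_zpow {a : Qbar} (ha : a ≠ 0) (n : ℤ) : totalLog (a ^ n) = n * totalLog a := by
  rcases n with n | n
  · rw [Int.ofNat_eq_natCast, zpow_natCast, totalLog_pow ha, Int.cast_natCast]
  · rw [zpow_negSucc, totalLog_inv (pow_ne_zero _ ha), totalLog_pow ha, Int.cast_negSucc]
    ring

section ProductFormula

variable {X : Type*} [MulAction GQ X]

/-- **the product formula for a stable divisor and an equivariant function** -/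
theorem sum_mul_totalLog_eq_zero {D : X →₀ ℤ} (hD : Stable D) {f : X → Qbar} (hf : Equivar f)
    (h0 : ∀ P ∈ D.support, f P ≠ 0) :
    ∑ P ∈ D.support, (D P : ℝ) * totalLog (f P) = 0 := by
  have h1 : ∀ P ∈ D.support, f P ^ (D P) ≠ 0 := fun P hP => zpow_ne_zero _ (h0 P hP)
  have h2 : totalLog (∏ P ∈ D.support, f P ^ (D P)) =
      ∑ P ∈ D.support, (D P : ℝ) * totalLog (f P) := by
    rw [totalLog_prod _ _ h1]
    exact Finset.sum_congr rfl fun P hP => totalLog_zpow (h0 P hP) _
  rw [← h2]
  refine totalLog_eq_zero_of_fixed (Finset.prod_ne_zero_iff.mpr h1) fun σ => ?_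
  rw [map_prod]
  refine Finset.prod_bij (fun P _ => σ • P) (fun P hP => hD.smul_mem_support σ hP)
    (fun P _ R _ h => MulAction.injective σ h) (fun R hR => ?_) (fun P _ => ?_)
  · refine ⟨σ⁻¹ • R, hD.smul_mem_support σ⁻¹ hR, ?_⟩
    show σ • σ⁻¹ • R = R
    rw [smul_inv_smul]
  · show σ (f P ^ (D P)) = f (σ • P) ^ (D (σ • P))
    rw [map_zpow₀, hf σ P, hD σ P]

/-- the same with natural multiplicities -/
theorem sum_mul_totalLog_eq_zero_nat {Z : X →₀ ℕ} (hZ : ∀ (σ : GQ) (P : X), Z (σ • P) = Z P)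
    {f : X → Qbar} (hf : Equivar f) (h0 : ∀ P ∈ Z.support, f P ≠ 0) :
    ∑ P ∈ Z.support, (Z P : ℝ) * totalLog (f P) = 0 := by
  have h1 : ∀ P ∈ Z.support, f P ^ (Z P) ≠ 0 := fun P hP => pow_ne_zero _ (h0 P hP)
  have h2 : totalLog (∏ P ∈ Z.support, f P ^ (Z P)) =
      ∑ P ∈ Z.support, (Z P : ℝ) * totalLog (f P) := by
    rw [totalLog_prod _ _ h1]
    exact Finset.sum_congr rfl fun P hP => totalLog_pow (h0 P hP) _
  have hsupp : ∀ (σ : GQ) {P : X}, P ∈ Z.support → σ • P ∈ Z.support := by
    intro σ P hP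
    rw [Finsupp.mem_support_iff] at hP ⊢
    rwa [hZ σ P]
  rw [← h2]
  refine totalLog_eq_zero_of_fixed (Finset.prod_ne_zero_iff.mpr h1) fun σ => ?_
  rw [map_prod]
  refine Finset.prod_bij (fun P _ => σ • P) (fun P hP => hsupp σ hP)
    (fun P _ R _ h => MulAction.injective σ h) (fun R hR => ?_) (fun P _ => ?_)
  · refine ⟨σ⁻¹ • R, hsupp σ⁻¹ hR, ?_⟩
    show σ • σ⁻¹ • R = R
    rw [smul_inv_smul]
  · show σ (f P ^ (Z P)) = f (σ • P) ^ (Z (σ • P))
    rw [map_pow, hf σ P, hZ σ P]

end ProductFormula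

end Fermat.Agent.S17.Ht
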