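import Mathlib
import Fermat.Prelude.Def_GaloisRep_ComplexConjugation
import Fermat.Prelude.Def_GaloisRep_CompletionBridge
import Fermat.Agent.CFT.LocalBridge.Conjugacy

/-!
# PROJECT H (S17), height stock: one fixed extension to `ℚ̄` of every place of `ℚ`

`Qbar := AlgebraicClosure ℚ`.  For every place `v` of `ℚ` (`none` = the archimedean place,
`some p` = the prime `p`) we fix ONE absolute value `absAt v` on `Qbar` extending the usual one:
through the prelude's `complexEmbedding : Qbar → ℂ`, resp. the prelude's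
`padicEmbedding p : Qbar → PadicAlgCl p` (spectral norm); so the valuation subring of
`absAt (some p)` is the prelude's `padicPlace p`.
Global statements are made for Galois-stable packets only, so that the only product formula needed
is the one of `ℚ`.
-/

set_option autoImplicit false

noncomputable section

namespace Fermat.Agent.S17.Ht

open Fermat.Agent.CFT.LocalBridge

/-- the field of algebraic numbers -/
abbrev Qbar : Type := AlgebraicClosure ℚ

/-- the places of `ℚ` : `none` is the archimedean one -/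
abbrev Pl : Type := Option Nat.Primes

instance factPrime (p : Nat.Primes) : Fact (p : ℕ).Prime := ⟨p.2⟩

/-- the absolute value on a field pulled back from a normed field along a ring homomorphism -/
def absOfHom {K L : Type*} [Field K] [NormedField L] (f : K →+* L) : AbsoluteValue K ℝ where
  toFun x := ‖f x‖
  map_mul' x y := by rw [map_mul, norm_mul]
  nonneg' x := norm_nonneg _
  eq_zero' x := by rw [norm_eq_zero, map_eq_zero]
  add_le' x y := by rw [map_add]; exact norm_add_le _ _

@[simp] theorem absOfHom_apply {K L : Type*} [Field K] [NormedField L] (f : K →+* L) (x : K) :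
    absOfHom f x = ‖f x‖ := rfl

/-- **the fixed absolute value of `Qbar` above the place `v` of `ℚ`** -/
def absAt : Pl → AbsoluteValue Qbar ℝ
  | none => absOfHom (complexEmbedding : Qbar →+* ℂ)
  | some p => absOfHom (padicEmbedding (p : ℕ) : Qbar →+* PadicAlgCl (p : ℕ))

theorem absAt_none (x : Qbar) : absAt none x = ‖complexEmbedding x‖ := rfl

theorem absAt_some (p : Nat.Primes) (x : Qbar) :
    absAt (some p) x = ‖padicEmbedding (p : ℕ) x‖ := rfl

theorem absAt_none_rat (r : ℚ) : absAt none (r : Qbar) = |(r : ℝ)| := by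
  rw [absAt_none, map_ratCast, Complex.norm_ratCast]

theorem absAt_some_rat (p : Nat.Primes) (r : ℚ) :
    absAt (some p) (r : Qbar) = padicNorm (p : ℕ) r := by
  rw [absAt_some, map_ratCast]
  have : ((r : ℚ) : PadicAlgCl (p : ℕ)) =
      algebraMap ℚ_[(p : ℕ)] (PadicAlgCl (p : ℕ)) (r : ℚ_[(p : ℕ)]) := by
    rw [map_ratCast]
  rw [this]
  have h := PadicAlgCl.norm_extends (p : ℕ) (r : ℚ_[(p : ℕ)])
  rw [h, Padic.eq_padicNorm]

theorem isNonarchimedean_absAt_some (p : Nat.Primes) : IsNonarchimedean (absAt (some p)) := by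
  intro x y
  rw [absAt_some, absAt_some, absAt_some, map_add]
  exact PadicAlgCl.isNonarchimedean (p : ℕ) _ _

/-- the valuation subring of the fixed `p`-adic absolute value is the prelude's `padicPlace` -/
theorem mem_padicPlace_iff_absAt_le_one (p : Nat.Primes) (x : Qbar) :
    x ∈ padicPlace (p : ℕ) ↔ absAt (some p) x ≤ 1 := by
  rw [mem_padicPlace_iff, absAt_some, ← NNReal.coe_le_coe, coe_nnnorm, NNReal.coe_one]

theorem liesOverPrime_padicPlace' (p : Nat.Primes) : (padicPlace (p : ℕ)).LiesOverPrime (p : ℕ) :=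
  liesOverPrime_padicPlace (p : ℕ)

theorem absAt_pos {v : Pl} {x : Qbar} (hx : x ≠ 0) : 0 < absAt v x := (absAt v).pos hx

/-- integral elements are `p`-adically bounded by `1` -/
theorem absAt_some_le_one_of_isIntegral (p : Nat.Primes) {x : Qbar} (hx : IsIntegral ℤ x) :
    absAt (some p) x ≤ 1 :=
  (mem_padicPlace_iff_absAt_le_one p x).mp (isIntegral_int_mem _ hx)

theorem absAt_some_intCast (p : Nat.Primes) (n : ℤ) :
    absAt (some p) (n : Qbar) = padicNorm (p : ℕ) n := by
  have := absAt_some_rat p (n : ℚ)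
  rwa [Rat.cast_intCast] at this

theorem absAt_some_intCast_eq_one (p : Nat.Primes) {n : ℤ} (h : ¬ ((p : ℕ) : ℤ) ∣ n) :
    absAt (some p) (n : Qbar) = 1 := by
  rw [absAt_some_intCast]
  exact_mod_cast (padicNorm.int_eq_one_iff n).mpr h

/-- one-sided finiteness: `|a|_p ≤ 1` for almost all `p` -/
theorem finite_setOf_one_lt_absAt (a : Qbar) : {p : Nat.Primes | 1 < absAt (some p) a}.Finite := by
  have halg : IsAlgebraic ℤ a :=
    (IsFractionRing.isAlgebraic_iff ℤ ℚ Qbar).mpr (Algebra.IsAlgebraic.isAlgebraic (R := ℚ) a)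
  obtain ⟨n, hn, hint⟩ := halg.exists_integral_multiple
  -- the primes dividing `n`
  have hfin : {p : Nat.Primes | ((p : ℕ) : ℤ) ∣ n}.Finite := by
    have h1 : {q : ℕ | q ∣ n.natAbs}.Finite := by
      refine Set.Finite.subset (Set.finite_Iic n.natAbs) fun q hq => ?_
      exact Nat.le_of_dvd (Int.natAbs_pos.mpr hn) hq
    refine Set.Finite.of_injOn (f := fun p : Nat.Primes => (p : ℕ)) ?_ ?_ h1
    · intro p hp
      exact Int.natCast_dvd.mp hp
    · intro p _ q _ hpq
      exact Subtype.ext hpq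
  refine hfin.subset fun p hp => ?_
  by_contra hdvd
  have h1 : absAt (some p) (n • a) ≤ 1 := absAt_some_le_one_of_isIntegral p hint
  rw [zsmul_eq_mul, map_mul, absAt_some_intCast_eq_one p hdvd, one_mul] at h1
  exact absurd hp (not_lt.mpr h1)

/-- **(P3)** `|a|_p = 1` for almost all `p` -/
theorem finite_setOf_absAt_ne_one {a : Qbar} (ha : a ≠ 0) :
    {p : Nat.Primes | absAt (some p) a ≠ 1}.Finite := by
  refine ((finite_setOf_one_lt_absAt a).union (finite_setOf_one_lt_absAt a⁻¹)).subset fun p hp => ?_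
  rcases lt_or_gt_of_ne hp with h | h
  · right
    show 1 < absAt (some p) a⁻¹
    rw [map_inv₀]
    exact (one_lt_inv₀ (absAt_pos ha)).mpr h
  · left
    exact h

/-! ### the total logarithm and the product formula -/

/-- `log |a|_v` -/
def logAbs (v : Pl) (a : Qbar) : ℝ := Real.log (absAt v a)

theorem logAbs_mul (v : Pl) {a b : Qbar} (ha : a ≠ 0) (hb : b ≠ 0) :
    logAbs v (a * b) = logAbs v a + logAbs v b := by
  unfold logAbs
  rw [map_mul, Real.log_mul (absAt_pos ha).ne' (absAt_pos hb).ne']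

theorem logAbs_one (v : Pl) : logAbs v 1 = 0 := by
  unfold logAbs
  rw [map_one, Real.log_one]

theorem logAbs_inv (v : Pl) (a : Qbar) : logAbs v a⁻¹ = - logAbs v a := by
  unfold logAbs
  rw [map_inv₀, Real.log_inv]

theorem finite_support_logAbs {a : Qbar} (ha : a ≠ 0) :
    (Function.support fun p : Nat.Primes => logAbs (some p) a).Finite := by
  refine (finite_setOf_absAt_ne_one ha).subset fun p hp => ?_
  intro h1
  apply hp
  show Real.log (absAt (some p) a) = 0
  rw [h1, Real.log_one]

/-- the sum over all places of `ℚ` of `log |a|_v̄` -/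
def totalLog (a : Qbar) : ℝ := logAbs none a + ∑ᶠ p : Nat.Primes, logAbs (some p) a

theorem totalLog_mul {a b : Qbar} (ha : a ≠ 0) (hb : b ≠ 0) :
    totalLog (a * b) = totalLog a + totalLog b := by
  unfold totalLog
  have h : (fun p : Nat.Primes => logAbs (some p) (a * b)) =
      fun p => logAbs (some p) a + logAbs (some p) b := by
    funext p
    exact logAbs_mul _ ha hb
  rw [h, finsum_add_distrib (finite_support_logAbs ha) (finite_support_logAbs hb),
    logAbs_mul _ ha hb]
  ring

theorem totalLog_one : totalLog 1 = 0 := by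
  unfold totalLog
  simp only [logAbs_one, finsum_zero, add_zero]

theorem totalLog_inv {a : Qbar} (ha : a ≠ 0) : totalLog a⁻¹ = - totalLog a := by
  have h := totalLog_mul ha (inv_ne_zero ha)
  rw [mul_inv_cancel₀ ha, totalLog_one] at h
  linarith

theorem totalLog_prod {ι : Type*} (s : Finset ι) (f : ι → Qbar) (hf : ∀ i ∈ s, f i ≠ 0) :
    totalLog (∏ i ∈ s, f i) = ∑ i ∈ s, totalLog (f i) := by
  classical
  induction s using Finset.induction_on with
  | empty => simp [totalLog_one]
  | insert i s hi ih =>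
    rw [Finset.prod_insert hi, Finset.sum_insert hi,
      totalLog_mul (hf i (Finset.mem_insert_self i s))
        (Finset.prod_ne_zero_iff.mpr fun j hj => hf j (Finset.mem_insert_of_mem hj)),
      ih fun j hj => hf j (Finset.mem_insert_of_mem hj)]

theorem totalLog_neg_one : totalLog (-1) = 0 := by
  have h := totalLog_mul (a := (-1 : Qbar)) (b := -1) (by norm_num) (by norm_num)
  rw [neg_one_mul, neg_neg, totalLog_one] at h
  linarith

/-- the product formula at a prime number -/
theorem totalLog_prime (q : Nat.Primes) : totalLog ((q : ℕ) : Qbar) = 0 := by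
  unfold totalLog
  have hq : (((q : ℕ) : ℚ) : Qbar) = ((q : ℕ) : Qbar) := by push_cast; rfl
  have h1 : logAbs none ((q : ℕ) : Qbar) = Real.log (q : ℕ) := by
    unfold logAbs
    rw [← hq, absAt_none_rat]
    congr 1
    push_cast
    exact abs_of_nonneg (Nat.cast_nonneg _)
  have h2 : ∀ p : Nat.Primes, logAbs (some p) ((q : ℕ) : Qbar) =
      if p = q then - Real.log (q : ℕ) else 0 := by
    intro p
    unfold logAbs
    rw [← hq, absAt_some_rat]
    split_ifs with hpq
    · subst hpq
      have : padicNorm (p : ℕ) (((p : ℕ) : ℚ)) = ((p : ℕ) : ℚ)⁻¹ := padicNorm.padicNorm_p_of_prime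
      rw [this]
      push_cast
      rw [Real.log_inv]
    · have hne : (p : ℕ) ≠ (q : ℕ) := fun h => hpq (Subtype.ext h)
      have : padicNorm (p : ℕ) (((q : ℕ) : ℚ)) = 1 :=
        padicNorm.padicNorm_of_prime_of_ne hne
      rw [this]
      simp
  rw [h1, finsum_congr h2, finsum_eq_single _ q (fun p hp => if_neg hp), if_pos rfl]
  ring

theorem totalLog_natCast {n : ℕ} (hn : n ≠ 0) : totalLog (n : Qbar) = 0 := by
  induction n using Nat.recOnMul with
  | zero => exact absurd rfl hn
  | one => rw [Nat.cast_one, totalLog_one]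
  | prime p hp => exact totalLog_prime ⟨p, hp⟩
  | mul a b ha hb =>
    have ha0 : a ≠ 0 := fun h => hn (by rw [h, zero_mul])
    have hb0 : b ≠ 0 := fun h => hn (by rw [h, mul_zero])
    rw [Nat.cast_mul, totalLog_mul (Nat.cast_ne_zero.mpr ha0) (Nat.cast_ne_zero.mpr hb0),
      ha ha0, hb hb0, add_zero]

theorem totalLog_intCast {n : ℤ} (hn : n ≠ 0) : totalLog (n : Qbar) = 0 := by
  rcases Int.natAbs_eq n with h | h
  · rw [h, Int.cast_natCast]
    exact totalLog_natCast (Int.natAbs_ne_zero.mpr hn)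
  · rw [h, Int.cast_neg, Int.cast_natCast, ← neg_one_mul,
      totalLog_mul (by norm_num) (Nat.cast_ne_zero.mpr (Int.natAbs_ne_zero.mpr hn)),
      totalLog_neg_one, totalLog_natCast (Int.natAbs_ne_zero.mpr hn), add_zero]

/-- **(P4) the product formula of `ℚ`** -/
theorem totalLog_ratCast {r : ℚ} (hr : r ≠ 0) : totalLog (r : Qbar) = 0 := by
  have hnum : r.num ≠ 0 := Rat.num_ne_zero.mpr hr
  have hden : (r.den : ℤ) ≠ 0 := by exact_mod_cast r.den_nz
  have h : (r : Qbar) = (r.num : Qbar) * ((r.den : ℤ) : Qbar)⁻¹ := by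
    conv_lhs => rw [← Rat.num_div_den r]
    push_cast
    rw [div_eq_mul_inv]
  rw [h, totalLog_mul (Int.cast_ne_zero.mpr hnum) (inv_ne_zero (Int.cast_ne_zero.mpr hden)),
    totalLog_inv (Int.cast_ne_zero.mpr hden), totalLog_intCast hnum, totalLog_intCast hden]
  ring

/-! ### Galois-stable packets -/

/-- the absolute Galois group of `ℚ` -/
abbrev GQ : Type := Qbar ≃ₐ[ℚ] Qbar

/-- a Galois-fixed algebraic number is rational -/
theorem exists_rat_of_fixed {a : Qbar} (h : ∀ σ : GQ, σ a = a) : ∃ r : ℚ, (r : Qbar) = a := by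
  obtain ⟨r, hr⟩ := (InfiniteGalois.mem_range_algebraMap_iff_fixed (k := ℚ) (K := Qbar) a).mpr h
  exact ⟨r, by rw [← hr]; simp⟩

theorem totalLog_eq_zero_of_fixed {a : Qbar} (ha : a ≠ 0) (h : ∀ σ : GQ, σ a = a) :
    totalLog a = 0 := by
  obtain ⟨r, rfl⟩ := exists_rat_of_fixed h
  exact totalLog_ratCast (fun h0 => ha (by rw [h0, Rat.cast_zero]))

/-- **(P4), packet form**: the product formula for a Galois-equivariant finite family -/
theorem sum_totalLog_eq_zero {X : Type*} [Fintype X] [MulAction GQ X] (f : X → Qbar)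
    (hf : ∀ (σ : GQ) (x : X), f (σ • x) = σ (f x)) (h0 : ∀ x, f x ≠ 0) :
    ∑ x, totalLog (f x) = 0 := by
  rw [← totalLog_prod _ _ fun x _ => h0 x]
  refine totalLog_eq_zero_of_fixed (Finset.prod_ne_zero_iff.mpr fun x _ => h0 x) fun σ => ?_
  rw [map_prod]
  have h1 : ∀ x, σ (f x) = f (MulAction.toPerm σ x) := fun x => (hf σ x).symm
  rw [Finset.prod_congr rfl fun x _ => h1 x]
  exact Equiv.prod_comp (MulAction.toPerm σ) f

/-- **(P4), packet form for a Galois-stable finite set of nonzero numbers** -/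
theorem sum_totalLog_finset_eq_zero (S : Finset Qbar) (hS : ∀ (σ : GQ), ∀ a ∈ S, σ a ∈ S)
    (h0 : (0 : Qbar) ∉ S) : ∑ a ∈ S, totalLog a = 0 := by
  have hne : ∀ a ∈ S, a ≠ 0 := fun a ha h => h0 (h ▸ ha)
  rw [← totalLog_prod _ _ hne]
  refine totalLog_eq_zero_of_fixed (Finset.prod_ne_zero_iff.mpr hne) fun σ => ?_
  rw [map_prod]
  refine Finset.prod_bij (fun a _ => σ a) (fun a ha => hS σ a ha) (fun a _ b _ h => σ.injective h)
    (fun b hb => ?_) (fun a _ => rfl)
  refine ⟨σ⁻¹ b, hS σ⁻¹ b hb, ?_⟩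
  show σ (σ⁻¹ b) = b
  exact σ.apply_symm_apply b

/-! ### local sup norms of tuples -/

section Norm

variable {ι : Type*} [Finite ι]

/-- the sup norm of a tuple at the fixed place above `v` -/
def nrm (v : Pl) (x : ι → Qbar) : ℝ := ⨆ i, absAt v (x i)

theorem absAt_le_nrm (v : Pl) (x : ι → Qbar) (i : ι) : absAt v (x i) ≤ nrm v x :=
  Finite.le_ciSup (fun i => absAt v (x i)) i

omit [Finite ι] in
theorem nrm_nonneg (v : Pl) (x : ι → Qbar) : 0 ≤ nrm v x :=
  Real.iSup_nonneg fun i => (absAt v).nonneg (x i)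

omit [Finite ι] in
theorem nrm_le {v : Pl} {x : ι → Qbar} {c : ℝ} (hc : 0 ≤ c) (h : ∀ i, absAt v (x i) ≤ c) :
    nrm v x ≤ c := Real.iSup_le h hc

theorem nrm_pos {v : Pl} {x : ι → Qbar} (hx : x ≠ 0) : 0 < nrm v x := by
  obtain ⟨i, hi⟩ := Function.ne_iff.mp hx
  exact lt_of_lt_of_le (absAt_pos hi) (absAt_le_nrm v x i)

theorem exists_absAt_eq_nrm [Nonempty ι] (v : Pl) (x : ι → Qbar) : ∃ i, absAt v (x i) = nrm v x :=
  exists_eq_ciSup_of_finite

omit [Finite ι] in
theorem nrm_smul (v : Pl) (c : Qbar) (x : ι → Qbar) : nrm v (c • x) = absAt v c * nrm v x := by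
  unfold nrm
  simp only [Pi.smul_apply, smul_eq_mul, map_mul]
  exact (Real.mul_iSup_of_nonneg ((absAt v).nonneg c) _).symm

/-- `log` of the sup norm -/
def lam (v : Pl) (x : ι → Qbar) : ℝ := Real.log (nrm v x)

theorem lam_smul (v : Pl) {c : Qbar} (hc : c ≠ 0) {x : ι → Qbar} (hx : x ≠ 0) :
    lam v (c • x) = logAbs v c + lam v x := by
  unfold lam logAbs
  rw [nrm_smul, Real.log_mul (absAt_pos hc).ne' (nrm_pos hx).ne']

theorem logAbs_le_lam (v : Pl) {x : ι → Qbar} {i : ι} (hi : x i ≠ 0) : logAbs v (x i) ≤ lam v x :=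
  Real.log_le_log (absAt_pos hi) (absAt_le_nrm v x i)

/-- the sup norm is `1` at almost all primes -/
theorem finite_setOf_nrm_ne_one {x : ι → Qbar} (hx : x ≠ 0) :
    {p : Nat.Primes | nrm (some p) x ≠ 1}.Finite := by
  classical
  have hfin : (⋃ i ∈ {i | x i ≠ 0}, {p : Nat.Primes | absAt (some p) (x i) ≠ 1}).Finite :=
    Set.Finite.biUnion (Set.toFinite _) fun i hi => finite_setOf_absAt_ne_one hi
  refine hfin.subset fun p hp => ?_
  by_contra hcon
  simp only [Set.mem_iUnion, Set.mem_ofPred_eq, not_exists, not_not] at hcon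
  apply hp
  obtain ⟨i₀, hi₀⟩ := Function.ne_iff.mp hx
  apply le_antisymm
  · refine nrm_le zero_le_one fun i => ?_
    by_cases hi : x i = 0
    · rw [hi, map_zero]; exact zero_le_one
    · exact (hcon i hi).le
  · rw [← hcon i₀ hi₀]
    exact absAt_le_nrm _ x i₀

theorem finite_support_lam {x : ι → Qbar} (hx : x ≠ 0) :
    (Function.support fun p : Nat.Primes => lam (some p) x).Finite := by
  refine (finite_setOf_nrm_ne_one hx).subset fun p hp h1 => hp ?_
  show Real.log (nrm (some p) x) = 0
  rw [h1, Real.log_one]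

/-- the sum over all places of `ℚ` of the logarithmic sup norms at the fixed extensions -/
def totalLam (x : ι → Qbar) : ℝ := lam none x + ∑ᶠ p : Nat.Primes, lam (some p) x

theorem totalLam_smul {c : Qbar} (hc : c ≠ 0) {x : ι → Qbar} (hx : x ≠ 0) :
    totalLam (c • x) = totalLog c + totalLam x := by
  unfold totalLam totalLog
  have h : (fun p : Nat.Primes => lam (some p) (c • x)) =
      fun p => logAbs (some p) c + lam (some p) x := by
    funext p
    exact lam_smul _ hc hx
  rw [h, finsum_add_distrib (finite_support_logAbs hc) (finite_support_lam hx), lam_smul _ hc hx]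
  ring

theorem totalLog_le_totalLam {x : ι → Qbar} {i : ι} (hi : x i ≠ 0) :
    totalLog (x i) ≤ totalLam x := by
  have hx : x ≠ 0 := fun h => hi (by rw [h]; rfl)
  unfold totalLam totalLog
  refine add_le_add (logAbs_le_lam _ hi) ?_
  exact finsum_le_finsum' (finite_support_logAbs hi) (finite_support_lam hx)
    fun p => logAbs_le_lam _ hi

/-- **packet height**: the sum of `totalLam` over a Galois-equivariant finite family of nonzero
tuples does not change under a Galois-equivariant rescaling -/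
theorem sum_totalLam_smul {X : Type*} [Fintype X] [MulAction GQ X] (c : X → Qbar)
    (hc : ∀ (σ : GQ) (a : X), c (σ • a) = σ (c a)) (hc0 : ∀ a, c a ≠ 0)
    (x : X → ι → Qbar) (hx0 : ∀ a, x a ≠ 0) :
    ∑ a, totalLam (c a • x a) = ∑ a, totalLam (x a) := by
  rw [Finset.sum_congr rfl fun a _ => totalLam_smul (hc0 a) (hx0 a), Finset.sum_add_distrib,
    sum_totalLog_eq_zero c hc hc0, zero_add]

/-- a packet height is nonnegative as soon as one coordinate vanishes nowhere on the packet -/
theorem sum_totalLam_nonneg {X : Type*} [Fintype X] [MulAction GQ X]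
    (x : X → ι → Qbar) (hx : ∀ (σ : GQ) (a : X) (i : ι), x (σ • a) i = σ (x a i))
    (i₀ : ι) (h0 : ∀ a, x a i₀ ≠ 0) : 0 ≤ ∑ a, totalLam (x a) := by
  have h := sum_totalLog_eq_zero (fun a => x a i₀) (fun σ a => hx σ a i₀) h0
  rw [← h]
  exact Finset.sum_le_sum fun a _ => totalLog_le_totalLam (h0 a)

end Norm

end Fermat.Agent.S17.Ht
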