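import Fermat.Agent.S17.Ht.Packets

/-!
# PROJECT H (S17), seam S-7 (global half): local symbols, the pairing `b`, reciprocity (R)

Abstract form of B.2 - B.4 of Part B of the H0 text.  `X` is the set of points, with lifts
`xt P ∈ Qbar^ι` (nonzero), "wedges" `w P R ∈ Qbar^κ` (nonzero for `P ≠ R`) and tangents
`tau P ∈ Qbar^κ` (nonzero).  Local symbols at the fixed place above `v`:

* `ell v P = log ‖xt P‖_v`,
* `lamD v P R = ell v P + ell v R - log ‖w P R‖_v` (`= - log d_v(P,R)`),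
* `bLoc v P R = - lamD v P R + (ell v P + ell v R)/δ` for `P ≠ R`,
  `bLoc v P P = log ‖tau P‖_v - (2 - 2/δ) ell v P`,
* `bGlob P R = ∑_v bLoc v P R`.

A *form datum* is a nonzero coefficient vector `a`, a zero divisor `Z : X →₀ ℕ` of degree `e δ`
and leading coefficients `lc P ≠ 0`, satisfying the two-sided local estimate `(A*)` with constants
`gam v` (almost all zero).  Conclusion: `∑_R Z R * bGlob P R = totalLog (lc P) + kap + O(tot gam)`
and, for stable `D` and equivariant `lc`, `B(D, Z) = deg D * kap + O(tot gam * |D|)`.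
-/

set_option autoImplicit false

noncomputable section

namespace Fermat.Agent.S17.Ht

section Symbols

variable {X : Type*} [DecidableEq X] {ι κ : Type*} [Finite ι] [Finite κ]
variable (xt : X → ι → Qbar) (w : X → X → κ → Qbar) (tau : X → κ → Qbar) (δ : ℕ)

/-- `ℓ_v(P) = log ‖xt P‖_v` -/
def ell (v : Pl) (P : X) : ℝ := lam v (xt P)

/-- `λ_v(P,R) = - log d_v(P,R)` -/
def lamD (v : Pl) (P R : X) : ℝ := lam v (xt P) + lam v (xt R) - lam v (w P R)

/-- the local pairing symbol `b_v(P,R)` -/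
def bLoc (v : Pl) (P R : X) : ℝ :=
  if P = R then lam v (tau P) - (2 - 2 / (δ : ℝ)) * lam v (xt P)
  else - lamD xt w v P R + (lam v (xt P) + lam v (xt R)) / (δ : ℝ)

/-- the global pairing symbol `b(P,R) = ∑_v b_v(P,R)` -/
def bGlob (P R : X) : ℝ := tot fun v => bLoc xt w tau δ v P R

omit [DecidableEq X] [Finite κ] in
theorem az_ell (hxt : ∀ P, xt P ≠ 0) (P : X) : AZ (fun v => ell xt v P) := az_lam (hxt P)

omit [DecidableEq X] in
theorem az_lamD (hxt : ∀ P, xt P ≠ 0) {P R : X} (hw : w P R ≠ 0) :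
    AZ (fun v => lamD xt w v P R) :=
  ((az_lam (hxt P)).add (az_lam (hxt R))).sub (az_lam hw)

omit [DecidableEq X] in
theorem tot_lamD (hxt : ∀ P, xt P ≠ 0) {P R : X} (hw : w P R ≠ 0) :
    tot (fun v => lamD xt w v P R) =
      totalLam (xt P) + totalLam (xt R) - totalLam (w P R) := by
  unfold lamD
  rw [tot_sub ((az_lam (hxt P)).add (az_lam (hxt R))) (az_lam hw),
    tot_add (az_lam (hxt P)) (az_lam (hxt R))]
  rfl

omit [Finite ι] [Finite κ] in
theorem bLoc_self (v : Pl) (P : X) :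
    bLoc xt w tau δ v P P = lam v (tau P) - (2 - 2 / (δ : ℝ)) * lam v (xt P) := by
  unfold bLoc
  rw [if_pos rfl]

omit [Finite ι] [Finite κ] in
theorem bLoc_of_ne (v : Pl) {P R : X} (h : P ≠ R) :
    bLoc xt w tau δ v P R = - lamD xt w v P R + (lam v (xt P) + lam v (xt R)) / (δ : ℝ) := by
  unfold bLoc
  rw [if_neg h]

theorem az_bLoc (hxt : ∀ P, xt P ≠ 0) (hw : ∀ P R, P ≠ R → w P R ≠ 0) (htau : ∀ P, tau P ≠ 0)
    (P R : X) : AZ (fun v => bLoc xt w tau δ v P R) := by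
  by_cases h : P = R
  · subst h
    simp only [bLoc_self]
    exact (az_lam (htau P)).sub ((az_lam (hxt P)).const_mul _)
  · simp only [bLoc_of_ne xt w tau δ _ h]
    have h1 := (az_lamD xt w hxt (hw P R h)).neg
    have h2 := ((az_lam (hxt P)).add (az_lam (hxt R))).const_mul ((δ : ℝ)⁻¹)
    refine (h1.add h2).subset fun p hp => ?_
    simpa [div_eq_inv_mul] using hp

theorem bGlob_self (hxt : ∀ P, xt P ≠ 0) (htau : ∀ P, tau P ≠ 0) (P : X) :
    bGlob xt w tau δ P P = totalLam (tau P) - (2 - 2 / (δ : ℝ)) * totalLam (xt P) := by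
  unfold bGlob
  simp only [bLoc_self]
  rw [tot_sub (az_lam (htau P)) ((az_lam (hxt P)).const_mul _), tot_const_mul]
  rfl

theorem bGlob_of_ne (hxt : ∀ P, xt P ≠ 0) {P R : X} (h : P ≠ R) (hw : w P R ≠ 0) :
    bGlob xt w tau δ P R =
      - (totalLam (xt P) + totalLam (xt R) - totalLam (w P R)) +
        (totalLam (xt P) + totalLam (xt R)) / (δ : ℝ) := by
  unfold bGlob
  simp only [bLoc_of_ne xt w tau δ _ h]
  have h1 := (az_lamD xt w hxt hw).neg
  have h2 := ((az_lam (hxt P)).add (az_lam (hxt R))).const_mul ((δ : ℝ)⁻¹)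
  have h3 : (fun v => - lamD xt w v P R + (lam v (xt P) + lam v (xt R)) / (δ : ℝ)) =
      fun v => - lamD xt w v P R + (δ : ℝ)⁻¹ * (lam v (xt P) + lam v (xt R)) := by
    funext v
    rw [div_eq_inv_mul]
  rw [h3, tot_add h1 h2, tot_neg, tot_lamD xt w hxt hw, tot_const_mul,
    tot_add (az_lam (hxt P)) (az_lam (hxt R)), div_eq_inv_mul]
  rfl

omit [Finite ι] [Finite κ] in
/-- symmetry of the global symbol -/
theorem bGlob_symm (hsymm : ∀ v P R, nrm v (w P R) = nrm v (w R P)) (P R : X) :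
    bGlob xt w tau δ P R = bGlob xt w tau δ R P := by
  by_cases h : P = R
  · subst h; rfl
  · unfold bGlob
    congr 1
    funext v
    rw [bLoc_of_ne xt w tau δ v h, bLoc_of_ne xt w tau δ v (Ne.symm h)]
    unfold lamD lam
    rw [hsymm v P R]
    ring

end Symbols

section Reciprocity

variable {X : Type*} [DecidableEq X] {ι κ α : Type*} [Finite ι] [Finite κ] [Finite α]
variable (xt : X → ι → Qbar) (w : X → X → κ → Qbar) (tau : X → κ → Qbar) (δ e : ℕ)

/-- splitting off one point from a weighted sum over the support -/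
theorem sum_support_eq_add_sum_erase (Z : X →₀ ℕ) (P : X) (F : X → ℝ) :
    ∑ R ∈ Z.support, (Z R : ℝ) * F R =
      (Z P : ℝ) * F P + ∑ R ∈ Z.support.erase P, (Z R : ℝ) * F R := by
  by_cases hP : P ∈ Z.support
  · exact (Finset.add_sum_erase _ _ hP).symm
  · rw [Finset.erase_eq_of_notMem hP]
    have : Z P = 0 := Finsupp.notMem_support_iff.mp hP
    rw [this, Nat.cast_zero, zero_mul, zero_add]

/-- the constant `κ(Ff) = - h([Ff]) + h(Z(Ff))/δ` of (R) -/
def kap (a : α → Qbar) (Z : X →₀ ℕ) : ℝ :=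
  - totalLam a + (∑ R ∈ Z.support, (Z R : ℝ) * totalLam (xt R)) / (δ : ℝ)

/-- the local defect `θ_v(P)` of (R) -/
def thetaLoc (a : α → Qbar) (Z : X →₀ ℕ) (lc : X → Qbar) (v : Pl) (P : X) : ℝ :=
  (∑ R ∈ Z.support, (Z R : ℝ) * bLoc xt w tau δ v P R) - logAbs v (lc P) + lam v a
    - (∑ R ∈ Z.support, (Z R : ℝ) * lam v (xt R)) / (δ : ℝ)

/-- the quantity bounded by the local estimate `(A*)` -/
def starDefect (a : α → Qbar) (Z : X →₀ ℕ) (lc : X → Qbar) (v : Pl) (P : X) : ℝ :=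
  logAbs v (lc P) - lam v a - ((e : ℝ) - 2 * (Z P : ℝ)) * lam v (xt P)
    - (Z P : ℝ) * lam v (tau P) + ∑ R ∈ Z.support.erase P, (Z R : ℝ) * lamD xt w v P R

omit [Finite ι] [Finite κ] [Finite α] in
/-- **the local identity behind (R)**: `θ_v(P) = - (A*)-defect` -/
theorem thetaLoc_eq_neg_starDefect (hδ : δ ≠ 0) (a : α → Qbar) (Z : X →₀ ℕ)
    (hZ : ∑ R ∈ Z.support, Z R = e * δ) (lc : X → Qbar) (v : Pl) (P : X) :
    thetaLoc xt w tau δ a Z lc v P = - starDefect xt w tau e a Z lc v P := by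
  have hδ' : (δ : ℝ) ≠ 0 := Nat.cast_ne_zero.mpr hδ
  unfold thetaLoc starDefect
  rw [sum_support_eq_add_sum_erase Z P (fun R => bLoc xt w tau δ v P R),
    sum_support_eq_add_sum_erase Z P (fun R => lam v (xt R)), bLoc_self]
  have h1 : ∑ R ∈ Z.support.erase P, (Z R : ℝ) * bLoc xt w tau δ v P R =
      ∑ R ∈ Z.support.erase P, (Z R : ℝ) *
        (- lamD xt w v P R + (lam v (xt P) + lam v (xt R)) / (δ : ℝ)) := by
    refine Finset.sum_congr rfl fun R hR => ?_
    rw [bLoc_of_ne xt w tau δ v (Finset.ne_of_mem_erase hR).symm]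
  have hcount : (∑ R ∈ Z.support.erase P, (Z R : ℝ)) = (e : ℝ) * (δ : ℝ) - (Z P : ℝ) := by
    have h2 := sum_support_eq_add_sum_erase Z P (fun _ => (1 : ℝ))
    simp only [mul_one] at h2
    have h3 : (∑ R ∈ Z.support, (Z R : ℝ)) = (e : ℝ) * (δ : ℝ) := by
      have := congrArg (fun n : ℕ => (n : ℝ)) hZ
      simpa using this
    linarith
  have h4 : ∑ R ∈ Z.support.erase P, (Z R : ℝ) *
        (- lamD xt w v P R + (lam v (xt P) + lam v (xt R)) / (δ : ℝ)) =
      - (∑ R ∈ Z.support.erase P, (Z R : ℝ) * lamD xt w v P R)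
        + (lam v (xt P) / (δ : ℝ)) * (∑ R ∈ Z.support.erase P, (Z R : ℝ))
        + (∑ R ∈ Z.support.erase P, (Z R : ℝ) * lam v (xt R)) / (δ : ℝ) := by
    rw [Finset.mul_sum, Finset.sum_div, ← Finset.sum_neg_distrib, ← Finset.sum_add_distrib,
      ← Finset.sum_add_distrib]
    refine Finset.sum_congr rfl fun R _ => ?_
    ring
  rw [h1, h4, hcount]
  field_simp
  ring

variable {xt w tau δ e}

/-- hypotheses on the geometric data, bundled for readability -/
def GoodData (xt : X → ι → Qbar) (w : X → X → κ → Qbar) (tau : X → κ → Qbar) : Prop :=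
  (∀ P, xt P ≠ 0) ∧ (∀ P R, P ≠ R → w P R ≠ 0) ∧ (∀ P, tau P ≠ 0)

theorem az_thetaLoc (hdata : GoodData xt w tau) {a : α → Qbar} (ha : a ≠ 0) (Z : X →₀ ℕ)
    {lc : X → Qbar} (hlc : ∀ P, lc P ≠ 0) (P : X) :
    AZ (fun v => thetaLoc xt w tau δ a Z lc v P) := by
  obtain ⟨hxt, hw, htau⟩ := hdata
  unfold thetaLoc
  have h1 : AZ (fun v => ∑ R ∈ Z.support, (Z R : ℝ) * bLoc xt w tau δ v P R) :=
    AZ.sum _ fun R _ => (az_bLoc xt w tau δ hxt hw htau P R).const_mul _
  have h2 : AZ (fun v => ∑ R ∈ Z.support, (Z R : ℝ) * lam v (xt R)) :=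
    AZ.sum _ fun R _ => (az_lam (hxt R)).const_mul _
  have h3 := ((h1.sub (az_logAbs (hlc P))).add (az_lam ha)).sub (h2.const_mul ((δ : ℝ)⁻¹))
  refine h3.subset fun p hp => ?_
  simpa [div_eq_inv_mul] using hp

theorem tot_thetaLoc (hdata : GoodData xt w tau) {a : α → Qbar} (ha : a ≠ 0) (Z : X →₀ ℕ)
    {lc : X → Qbar} (hlc : ∀ P, lc P ≠ 0) (P : X) :
    tot (fun v => thetaLoc xt w tau δ a Z lc v P) =
      (∑ R ∈ Z.support, (Z R : ℝ) * bGlob xt w tau δ P R) - totalLog (lc P)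
        - kap xt δ a Z := by
  obtain ⟨hxt, hw, htau⟩ := hdata
  have h1 : AZ (fun v => ∑ R ∈ Z.support, (Z R : ℝ) * bLoc xt w tau δ v P R) :=
    AZ.sum _ fun R _ => (az_bLoc xt w tau δ hxt hw htau P R).const_mul _
  have h2 : AZ (fun v => ∑ R ∈ Z.support, (Z R : ℝ) * lam v (xt R)) :=
    AZ.sum _ fun R _ => (az_lam (hxt R)).const_mul _
  have h3 : (fun v => thetaLoc xt w tau δ a Z lc v P) = fun v =>
      ((∑ R ∈ Z.support, (Z R : ℝ) * bLoc xt w tau δ v P R) - logAbs v (lc P) + lam v a)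
        - (δ : ℝ)⁻¹ * (∑ R ∈ Z.support, (Z R : ℝ) * lam v (xt R)) := by
    funext v
    unfold thetaLoc
    rw [div_eq_inv_mul]
  rw [h3, tot_sub ((h1.sub (az_logAbs (hlc P))).add (az_lam ha)) (h2.const_mul _),
    tot_add (h1.sub (az_logAbs (hlc P))) (az_lam ha), tot_sub h1 (az_logAbs (hlc P)),
    tot_const_mul,
    tot_sum _ (fun R _ => (az_bLoc xt w tau δ hxt hw htau P R).const_mul _),
    tot_sum _ (fun R _ => (az_lam (hxt R)).const_mul _)]
  simp only [tot_const_mul]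
  unfold kap bGlob
  rw [← totalLog_eq_tot, ← totalLam_eq_tot, div_eq_inv_mul]
  simp only [← totalLam_eq_tot]
  ring

/-- **(R), pointwise form.**  From the two-sided local estimate `(A*)` at all places. -/
theorem abs_sum_bGlob_sub_le (hdata : GoodData xt w tau) (hδ : δ ≠ 0) {a : α → Qbar} (ha : a ≠ 0)
    (Z : X →₀ ℕ) (hZ : ∑ R ∈ Z.support, Z R = e * δ) {lc : X → Qbar} (hlc : ∀ P, lc P ≠ 0)
    {gam : Pl → ℝ} (hgam : AZ gam)
    (hA : ∀ v P, |starDefect xt w tau e a Z lc v P| ≤ gam v) (P : X) :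
    |(∑ R ∈ Z.support, (Z R : ℝ) * bGlob xt w tau δ P R) - totalLog (lc P) - kap xt δ a Z|
      ≤ tot gam := by
  rw [← tot_thetaLoc hdata ha Z hlc P]
  have haz := az_thetaLoc (δ := δ) hdata ha Z hlc P
  have hb : ∀ v, |thetaLoc xt w tau δ a Z lc v P| ≤ gam v := fun v => by
    rw [thetaLoc_eq_neg_starDefect xt w tau δ e hδ a Z hZ lc v P, abs_neg]
    exact hA v P
  rw [abs_le]
  constructor
  · rw [← tot_neg]
    exact tot_mono hgam.neg haz fun v => (abs_le.mp (hb v)).1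
  · exact tot_mono haz hgam fun v => (abs_le.mp (hb v)).2

/-- **(R), packet form = B.4.**  For a stable divisor `D` and Galois-equivariant leading
coefficients: `B(D, Z) = deg D * κ + Θ`, `|Θ| ≤ (tot gam) * |D|`. -/
theorem abs_sum_sum_bGlob_sub_le [MulAction GQ X] (hdata : GoodData xt w tau) (hδ : δ ≠ 0)
    {a : α → Qbar} (ha : a ≠ 0) (Z : X →₀ ℕ) (hZ : ∑ R ∈ Z.support, Z R = e * δ)
    {lc : X → Qbar} (hlc : ∀ P, lc P ≠ 0) (hlcE : Equivar lc)
    {gam : Pl → ℝ} (hgam : AZ gam)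
    (hA : ∀ v P, |starDefect xt w tau e a Z lc v P| ≤ gam v)
    {D : X →₀ ℤ} (hD : Stable D) :
    |(∑ P ∈ D.support, ∑ R ∈ Z.support, (D P : ℝ) * (Z R : ℝ) * bGlob xt w tau δ P R)
        - (∑ P ∈ D.support, (D P : ℝ)) * kap xt δ a Z|
      ≤ tot gam * ∑ P ∈ D.support, |(D P : ℝ)| := by
  have hpf := sum_mul_totalLog_eq_zero hD hlcE fun P _ => hlc P
  have h1 : (∑ P ∈ D.support, ∑ R ∈ Z.support, (D P : ℝ) * (Z R : ℝ) * bGlob xt w tau δ P R)
        - (∑ P ∈ D.support, (D P : ℝ)) * kap xt δ a Z =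
      ∑ P ∈ D.support, (D P : ℝ) *
        ((∑ R ∈ Z.support, (Z R : ℝ) * bGlob xt w tau δ P R) - totalLog (lc P)
          - kap xt δ a Z) := by
    have h2 : ∀ P ∈ D.support, (D P : ℝ) *
        ((∑ R ∈ Z.support, (Z R : ℝ) * bGlob xt w tau δ P R) - totalLog (lc P)
          - kap xt δ a Z) =
        (∑ R ∈ Z.support, (D P : ℝ) * (Z R : ℝ) * bGlob xt w tau δ P R)
          - (D P : ℝ) * totalLog (lc P) - (D P : ℝ) * kap xt δ a Z := by
      intro P _
      rw [mul_sub, mul_sub, Finset.mul_sum]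
      congr 2
      exact Finset.sum_congr rfl fun R _ => by ring
    rw [Finset.sum_congr rfl h2, Finset.sum_sub_distrib, Finset.sum_sub_distrib, hpf, sub_zero,
      Finset.sum_mul]
  rw [h1, Finset.mul_sum]
  refine (Finset.abs_sum_le_sum_abs _ _).trans (Finset.sum_le_sum fun P _ => ?_)
  rw [abs_mul, mul_comm]
  exact mul_le_mul_of_nonneg_right
    (abs_sum_bGlob_sub_le hdata hδ ha Z hZ hlc hgam hA P) (abs_nonneg _)

/-- the zero divisor with integer coefficients -/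
def zInt (Z : X →₀ ℕ) : X →₀ ℤ := Z.mapRange (fun n : ℕ => (n : ℤ)) rfl

omit [DecidableEq X] in
theorem zInt_apply (Z : X →₀ ℕ) (R : X) : zInt Z R = (Z R : ℤ) := rfl

omit [DecidableEq X] in
theorem support_zInt (Z : X →₀ ℕ) : (zInt Z).support = Z.support := by
  ext R
  simp [zInt_apply]

/-- **(R), packet form = B.4**, with the zero divisor as an element of `X →₀ ℤ` and the degree
as an integer: the left side is the explicit double sum of the bilinear extension of `bGlob`. -/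
theorem abs_sum_sum_bGlob_zInt_sub_le [MulAction GQ X] (hdata : GoodData xt w tau) (hδ : δ ≠ 0)
    {a : α → Qbar} (ha : a ≠ 0) (Z : X →₀ ℕ) (hZ : ∑ R ∈ Z.support, Z R = e * δ)
    {lc : X → Qbar} (hlc : ∀ P, lc P ≠ 0) (hlcE : Equivar lc)
    {gam : Pl → ℝ} (hgam : AZ gam)
    (hA : ∀ v P, |starDefect xt w tau e a Z lc v P| ≤ gam v)
    {D : X →₀ ℤ} (hD : Stable D) :
    |(∑ P ∈ D.support, ∑ R ∈ (zInt Z).support,
          ((D P : ℤ) : ℝ) * ((zInt Z R : ℤ) : ℝ) * bGlob xt w tau δ P R)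
        - ((∑ P ∈ D.support, D P : ℤ) : ℝ) * kap xt δ a Z|
      ≤ tot gam * ∑ P ∈ D.support, |((D P : ℤ) : ℝ)| := by
  have h := abs_sum_sum_bGlob_sub_le hdata hδ ha Z hZ hlc hlcE hgam hA hD
  rw [support_zInt]
  simp only [zInt_apply, Int.cast_natCast]
  rw [Int.cast_sum]
  exact h

end Reciprocity

end Fermat.Agent.S17.Ht
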