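import Fermat.Agent.S17.Ht.Recip

/-!
# PROJECT H (S17): bridge from THEOREM A (logarithmic, multiplicity-indexed form) to `(A*)`

`Local/StarMult.star_log_mult` (helper10) concludes, for ONE absolute value, ONE form `a` and ONE
point `P`,

`|log |a_μ| - (log ‖a‖ + ∑_{R ∈ Z} mult R * (log ‖W R‖ - log ‖z_R‖) - (d - 1) log ‖z_P‖)| ≤ C`

where `W R = z_R ∧ z_P` for the zeros `R ≠ P` and `W P = τ_P`.  This file rewrites the left side
as `|starDefect ..|` of `Ht/Recip.lean` (degree `e = 1`, `d = δ`), at the absolute value `absAt v`.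
Pure algebra; the sup norm `supN abv x = ⨆ i, abv (x i)` of the local layer is `nrm v x` by
definition when `abv = absAt v`.
-/

set_option autoImplicit false

noncomputable section

namespace Fermat.Agent.S17.Ht

section Bridge

variable {X : Type*} [DecidableEq X] {ι κ α : Type*} [Finite ι] [Finite κ] [Finite α]
variable (xt : X → ι → Qbar) (w : X → X → κ → Qbar) (tau : X → κ → Qbar) (δ : ℕ)

omit [Finite ι] [Finite κ] [Finite α] in
/-- the main term of THEOREM A in the language of `Recip` -/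
theorem star_main_eq (hδ : 0 < δ) (a : α → Qbar) (Z : X →₀ ℕ)
    (hZ : ∑ R ∈ Z.support, Z R = δ) (v : Pl) (P : X)
    (W : X → κ → Qbar) (hWP : lam v (W P) = lam v (tau P))
    (hWR : ∀ R, R ≠ P → lam v (W R) = lam v (w P R)) :
    lam v a + ∑ R ∈ Z.support, (Z R : ℝ) * (lam v (W R) - lam v (xt R))
        - ((δ - 1 : ℕ) : ℝ) * lam v (xt P) =
      lam v a + ((1 : ℝ) - 2 * (Z P : ℝ)) * lam v (xt P) + (Z P : ℝ) * lam v (tau P)
        - ∑ R ∈ Z.support.erase P, (Z R : ℝ) * lamD xt w v P R := by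
  rw [sum_support_eq_add_sum_erase Z P (fun R => lam v (W R) - lam v (xt R)), hWP]
  have h1 : ∑ R ∈ Z.support.erase P, (Z R : ℝ) * (lam v (W R) - lam v (xt R)) =
      ∑ R ∈ Z.support.erase P, ((Z R : ℝ) * lam v (xt P) - (Z R : ℝ) * lamD xt w v P R) := by
    refine Finset.sum_congr rfl fun R hR => ?_
    rw [hWR R (Finset.ne_of_mem_erase hR)]
    unfold lamD
    ring
  have hcount : (∑ R ∈ Z.support.erase P, (Z R : ℝ)) = (δ : ℝ) - (Z P : ℝ) := by
    have h2 := sum_support_eq_add_sum_erase Z P (fun _ => (1 : ℝ))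
    simp only [mul_one] at h2
    have h3 : (∑ R ∈ Z.support, (Z R : ℝ)) = (δ : ℝ) := by
      have := congrArg (fun n : ℕ => (n : ℝ)) hZ
      simpa using this
    linarith
  have hδ1 : ((δ - 1 : ℕ) : ℝ) = (δ : ℝ) - 1 := by
    rw [Nat.cast_sub hδ, Nat.cast_one]
  rw [h1, Finset.sum_sub_distrib, ← Finset.sum_mul, hcount, hδ1]
  ring

omit [Finite ι] [Finite κ] [Finite α] in
/-- **bridge**: the logarithmic form of THEOREM A is the bound `(A*)` on `starDefect` -/
theorem abs_starDefect_le_of_star_log (hδ : 0 < δ) (a : α → Qbar) (Z : X →₀ ℕ)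
    (hZ : ∑ R ∈ Z.support, Z R = δ) (lc : X → Qbar) (v : Pl) (P : X)
    (W : X → κ → Qbar) (hWP : lam v (W P) = lam v (tau P))
    (hWR : ∀ R, R ≠ P → lam v (W R) = lam v (w P R)) {C : ℝ}
    (h : |logAbs v (lc P) - (lam v a
        + ∑ R ∈ Z.support, (Z R : ℝ) * (lam v (W R) - lam v (xt R))
        - ((δ - 1 : ℕ) : ℝ) * lam v (xt P))| ≤ C) :
    |starDefect xt w tau 1 a Z lc v P| ≤ C := by
  rw [star_main_eq xt w tau δ hδ a Z hZ v P W hWP hWR] at h
  have : starDefect xt w tau 1 a Z lc v P =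
      logAbs v (lc P) - (lam v a + ((1 : ℝ) - 2 * (Z P : ℝ)) * lam v (xt P)
        + (Z P : ℝ) * lam v (tau P)
        - ∑ R ∈ Z.support.erase P, (Z R : ℝ) * lamD xt w v P R) := by
    unfold starDefect
    push_cast
    ring
  rw [this]
  exact h

omit [DecidableEq X] [Finite ι] [Finite κ] [Finite α] in
/-- the literal shape of the conclusion of `Local/StarMult.star_log_mult` at `abv := absAt v`:
`Real.log (absAt v ·)`, `Real.log (⨆ i, absAt v (· i))` are `logAbs v`, `lam v` by definition -/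
theorem star_log_shape (a : α → Qbar) (Z : X →₀ ℕ) (lc : X → Qbar) (v : Pl) (P : X)
    (W : X → κ → Qbar) (d : ℕ) :
    (Real.log (absAt v (lc P)) - (Real.log (⨆ i, absAt v (a i))
        + ∑ R ∈ Z.support, (Z R : ℝ) *
            (Real.log (⨆ i, absAt v (W R i)) - Real.log (⨆ i, absAt v (xt R i)))
        - ((d - 1 : ℕ) : ℝ) * Real.log (⨆ i, absAt v (xt P i)))) =
      logAbs v (lc P) - (lam v a
        + ∑ R ∈ Z.support, (Z R : ℝ) * (lam v (W R) - lam v (xt R))
        - ((d - 1 : ℕ) : ℝ) * lam v (xt P)) := rfl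

end Bridge

end Fermat.Agent.S17.Ht
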