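import Fermat.Agent.S17.Ht.StarBridge
import Fermat.Agent.S17.Local.StarMult

/-!
# PROJECT H (S17): THEOREM A (abstract, multiplicity-indexed) at the fixed place above `v` gives `(A*)`

`Local/StarMult.star_log_mult` (helper10) instantiated at `abv := absAt v`, `Z := Z.support`,
`mult := Z`, `nzX R := nrm v (xt R)`, `nzP := nrm v (xt P)`, `na := nrm v a`, `amu := lc P`,
composed with the bridge of `Ht/StarBridge.lean`: the hypotheses of THEOREM A for the pair `(a, P)`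
give the bound `(A*)` on `starDefect xt w tau 1 a Z lc v P` with the explicit constant of
`star_log_mult`.
-/

set_option autoImplicit false

noncomputable section

namespace Fermat.Agent.S17.Ht

open Fermat.Agent.S17.Local Finset

/-- **THEOREM A ⟹ (A\*)** at the place `v`, for one pair `(a, P)`:
`W R = w P R` (`R ≠ P`), `W P = tau P`. -/
theorem abs_starDefect_le_of_star_hyps {X : Type*} [DecidableEq X] {ι α : Type*} [Finite ι]
    [Finite α] {M r : ℕ}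
    (xt : X → ι → Qbar) (w : X → X → Fin r → Qbar) (tau : X → Fin r → Qbar) (δ : ℕ)
    (hδ : 0 < δ) (a : α → Qbar) (Z : X →₀ ℕ) (hZ : ∑ R ∈ Z.support, Z R = δ) (lc : X → Qbar)
    (v : Pl) (P : X) (W : X → Fin r → Qbar) (hWP : W P = tau P)
    (hWR : ∀ R, R ≠ P → W R = w P R)
    (lamP : Fin M → Fin r → Qbar)
    {U L l g c0 : ℝ} (hU : 0 < U) (hL : 0 < L) (hl : 0 < l) (hg : 0 < g) (hc0 : 0 < c0)
    (hcard : ∀ w : Fin r → Qbar, (smallSet (absAt v) lamP c0 w).card ≤ r - 1)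
    (hM : (r - 1) * δ < M)
    (hW : ∀ R ∈ Z.support, 0 < supN (absAt v) (W R))
    (hnz : ∀ R ∈ Z.support, 0 < nrm v (xt R))
    (hnzP : 0 < nrm v (xt P)) (hna : 0 < nrm v a)
    (Phi cm : Fin M → Qbar) (Nn : Fin M → ℝ) (nyX : Fin M → X → ℝ)
    (hny : ∀ m, ∀ R ∈ Z.support, 0 < nyX m R)
    (hN : ∀ m, lc P * Phi m = cm m * ∏ R ∈ Z.support, pair (lamP m) (W R) ^ (Z R))
    (hG_le : ∀ m, Nn m ≤ g * (absAt v (cm m) * ∏ R ∈ Z.support, nyX m R ^ (Z R)))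
    (hG_ge : ∀ m, absAt v (cm m) * ∏ R ∈ Z.support, nyX m R ^ (Z R) ≤ g * Nn m)
    (hU_Phi : ∀ m, absAt v (Phi m) ≤ U * nrm v a ^ (δ - 1) * nrm v (xt P) ^ (δ - 1))
    (hU_y : ∀ m, ∀ R ∈ Z.support, nyX m R ≤ U * nrm v (xt R))
    (hU_N : ∀ m, Nn m ≤ U * nrm v a ^ δ)
    (hU_pair : ∀ m, ∀ R ∈ Z.support, absAt v (pair (lamP m) (W R)) ≤ U * supN (absAt v) (W R))
    (hL1 : ∀ m, ∀ R ∈ Z.support, nrm v (xt R) ≤ L * nyX m R)
    (hL2 : ∀ m, l * nrm v a ^ δ ≤ Nn m)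
    (hL3 : ∃ m, l * nrm v a ^ (δ - 1) * nrm v (xt P) ^ (δ - 1) ≤ absAt v (Phi m)) :
    |starDefect xt w tau 1 a Z lc v P| ≤
      max (-Real.log (l * c0 ^ δ / (g * U ^ (δ + 1))))
        (Real.log (g * U ^ (δ + 1) * L ^ δ / l)) := by
  have key := star_log_mult (absAt v) lamP hU hL hl hg hc0 hcard hM Z.support (fun R => Z R) hZ
    W hW (fun R => nrm v (xt R)) hnz hnzP hna (lc P) Phi cm Nn nyX hny hN hG_le hG_ge hU_Phi
    hU_y hU_N hU_pair hL1 hL2 hL3 hδ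
  refine abs_starDefect_le_of_star_log xt w tau δ hδ a Z hZ lc v P W (by rw [hWP])
    (fun R hR => by rw [hWR R hR]) ?_
  exact key

end Fermat.Agent.S17.Ht
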